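import Fermat.Agent.H82.SS.Contract
import Fermat.Agent.H65.E6.ModelGauss

/-!
# P-SS row 748 (SS-GC), helper55: `C(x) ⊆ V_∞ ∩ V_0`

`modelGaussConverse M q : Fermat.Agent.H82.SS.ModelGaussConverseStatement M q jq`.

Every element `z` of the Gauss closure `C(x)` of the model field `E₀ = ModelField K₁ (M q)` is a
quotient `a / b` of elements with `A₀`-integral `q`-expansions, `b` primitive, and likewise
`W z = W a' / W b'` for the Atkin-Lehner automorphism `W`.

Proof: `A₁ := ` the image of `A₀` in `K₁` is a valuation subring; the elements of `E₀` whose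
`q`-expansion lies in the Gauss ring of `A₁` form a valuation subring `mgVal A₁ N` of `E₀`
(helper65 / helper66), hence an integrally closed ring.  If `x'` has an integral `q`-expansion
whose reduction is transcendental over the residue field (`x' = x = j` or `x' = W x = j(t^q)`),
then `A₀[x'] ⊆ mgVal` and `H(x')` is a unit of `mgVal` for `H ∉ ϖ A₀[X]`; so
`H(x') w` integral over `A₀[x']` implies `w ∈ mgVal`.  Finally the Gauss normal form
(`Fermat.Agent.H66.exists_gnf`) writes an element of `mgVal` as `a / b`.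
-/

set_option autoImplicit false
set_option linter.style.haveILetI false
set_option linter.unusedSectionVars false

noncomputable section

namespace Fermat.Agent.H55.SS

open Polynomial ModularCurve
open Fermat.Agent.H22.KL Fermat.Agent.H66 Fermat.Agent.H87.KL Fermat.Agent.H65

section Range

variable (A₀ K₁ : Type) [CommRing A₀] [IsDomain A₀] [ValuationRing A₀] [Field K₁]
  [Algebra A₀ K₁] [IsFractionRing A₀ K₁]

/-- The valuation subring of `K₁ = Frac A₀` given by the valuation ring `A₀`. -/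
def rangeVal : ValuationSubring K₁ where
  toSubring := (algebraMap A₀ K₁).range
  mem_or_inv_mem' := fun c => by
    rcases ValuationRing.isInteger_or_isInteger A₀ c with ⟨a, ha⟩ | ⟨a, ha⟩
    · exact Or.inl ⟨a, ha⟩
    · exact Or.inr ⟨a, ha⟩

theorem mem_rangeVal_iff (c : K₁) : c ∈ rangeVal A₀ K₁ ↔ ∃ a : A₀, algebraMap A₀ K₁ a = c :=
  Iff.rfl

/-- `A₀ → A₁`. -/
def toRangeVal : A₀ →+* ↥(rangeVal A₀ K₁) :=
  (algebraMap A₀ K₁).codRestrict (rangeVal A₀ K₁).toSubring (fun a => ⟨a, rfl⟩)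

theorem coe_toRangeVal (a : A₀) :
    ((toRangeVal A₀ K₁ a : ↥(rangeVal A₀ K₁)) : K₁) = algebraMap A₀ K₁ a := rfl

theorem toRangeVal_injective : Function.Injective (toRangeVal A₀ K₁) := by
  intro a b h
  apply IsFractionRing.injective A₀ K₁
  have := congrArg Subtype.val h
  exact this

theorem toRangeVal_surjective : Function.Surjective (toRangeVal A₀ K₁) := by
  rintro ⟨c, a, rfl⟩
  exact ⟨a, rfl⟩

theorem isUnit_toRangeVal_iff (a : A₀) : IsUnit (toRangeVal A₀ K₁ a) ↔ IsUnit a := by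
  constructor
  · intro h
    obtain ⟨u, hu⟩ := h
    obtain ⟨b, hb⟩ := toRangeVal_surjective A₀ K₁ (↑u⁻¹ : ↥(rangeVal A₀ K₁))
    refine IsUnit.of_mul_eq_one b ?_
    apply toRangeVal_injective A₀ K₁
    rw [map_mul, map_one, hb, ← hu, Units.mul_inv]
  · intro h
    exact h.map _

end Range

section Core

variable {K₁ : Type} [Field K₁] [Algebra ℚ K₁] {N : ℕ}
  {A₀ : Type} [CommRing A₀] [IsDomain A₀] [IsDiscreteValuationRing A₀]
  [Algebra A₀ K₁] [IsFractionRing A₀ K₁]
  [Algebra A₀ (ModelField K₁ N)] [IsScalarTower A₀ K₁ (ModelField K₁ N)]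

theorem gc_coe_algebraMap (a : A₀) :
    ((algebraMap A₀ (ModelField K₁ N) a : ModelField K₁ N) : LaurentSeries K₁) =
      algebraMap K₁ (LaurentSeries K₁) (algebraMap A₀ K₁ a) := by
  rw [IsScalarTower.algebraMap_apply A₀ K₁ (ModelField K₁ N)]
  rfl

/-- Evaluation of a polynomial over `A₀` at a Laurent series over `A₁`. -/
def evSeries (ξ : LaurentSeries ↥(rangeVal A₀ K₁)) :
    A₀[X] →+* LaurentSeries ↥(rangeVal A₀ K₁) :=
  Polynomial.eval₂RingHom
    ((HahnSeries.C : ↥(rangeVal A₀ K₁) →+* LaurentSeries ↥(rangeVal A₀ K₁)).comp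
      (toRangeVal A₀ K₁)) ξ

theorem vIota_evSeries (x' : ModelField K₁ N) (ξ : LaurentSeries ↥(rangeVal A₀ K₁))
    (hx' : (x' : LaurentSeries K₁) = vIota (rangeVal A₀ K₁) ξ) (H : A₀[X]) :
    vIota (rangeVal A₀ K₁) (evSeries ξ H) =
      ((aeval x' H : ModelField K₁ N) : LaurentSeries K₁) := by
  have key : (vIota (rangeVal A₀ K₁)).comp (evSeries ξ) =
      ((laurentBaseChange K₁ (modularFunctionFieldFull N)).val.toRingHom).comp
        (evX (A := A₀) x') := by
    apply Polynomial.ringHom_ext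
    · intro a
      show vIota (rangeVal A₀ K₁) (evSeries ξ (C a)) =
        ((aeval x' (C a) : ModelField K₁ N) : LaurentSeries K₁)
      rw [aeval_C, gc_coe_algebraMap, evSeries, Polynomial.coe_eval₂RingHom, eval₂_C,
        RingHom.comp_apply, ← algebraMap_eq_vIota]
      rfl
    · show vIota (rangeVal A₀ K₁) (evSeries ξ X) =
        ((aeval x' X : ModelField K₁ N) : LaurentSeries K₁)
      rw [aeval_X, evSeries, Polynomial.coe_eval₂RingHom, eval₂_X, hx']
  exact congrArg (fun f => f H) key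

theorem vRho_evSeries (ξ : LaurentSeries ↥(rangeVal A₀ K₁)) (H : A₀[X]) :
    vRho (rangeVal A₀ K₁) (evSeries ξ H) =
      aeval (vRho (rangeVal A₀ K₁) ξ)
        (H.map ((IsLocalRing.residue ↥(rangeVal A₀ K₁)).comp (toRangeVal A₀ K₁))) := by
  rw [evSeries, Polynomial.coe_eval₂RingHom, Polynomial.hom_eval₂, aeval_def, eval₂_map]
  congr 1
  apply RingHom.ext
  intro a
  simp only [RingHom.comp_apply]
  exact vRho_C (rangeVal A₀ K₁) (toRangeVal A₀ K₁ a)

/-- `A₀[x'] ⊆ mgVal` when `x'` has an integral `q`-expansion. -/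
theorem gc_aeval_mem (x' : ModelField K₁ N) (ξ : LaurentSeries ↥(rangeVal A₀ K₁))
    (hx' : (x' : LaurentSeries K₁) = vIota (rangeVal A₀ K₁) ξ) (H : A₀[X]) :
    ((aeval x' H : ModelField K₁ N) : LaurentSeries K₁) ∈ vGaussRing (rangeVal A₀ K₁) := by
  rw [← vIota_evSeries x' ξ hx' H]
  exact vIota_mem_vGaussRing _ _

/-- A polynomial not divisible by `ϖ` has nonzero reduction. -/
theorem gc_map_ne_zero {ϖ : A₀} (hϖ : Irreducible ϖ) {H : A₀[X]} (hH : ¬ C ϖ ∣ H) :
    H.map ((IsLocalRing.residue ↥(rangeVal A₀ K₁)).comp (toRangeVal A₀ K₁)) ≠ 0 := by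
  intro h0
  apply hH
  rw [C_dvd_iff_dvd_coeff]
  intro i
  have h1 : (IsLocalRing.residue ↥(rangeVal A₀ K₁)) (toRangeVal A₀ K₁ (H.coeff i)) = 0 := by
    have := congrArg (fun p => p.coeff i) h0
    simpa [coeff_map] using this
  rw [IsLocalRing.residue_eq_zero_iff, IsLocalRing.mem_maximalIdeal, mem_nonunits_iff,
    isUnit_toRangeVal_iff] at h1
  have h2 : H.coeff i ∈ IsLocalRing.maximalIdeal A₀ := (IsLocalRing.mem_maximalIdeal _).mpr h1
  rw [hϖ.maximalIdeal_eq, Ideal.mem_span_singleton] at h2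
  exact h2

/-- **Core**: if `H(x') w` is integral over `A₀[x']`, `H ∉ ϖ A₀[X]`, and `x'` has an integral
`q`-expansion with transcendental reduction, then the `q`-expansion of `w` lies in the Gauss
ring. -/
theorem gc_core {ϖ : A₀} (hϖ : Irreducible ϖ) (x' : ModelField K₁ N)
    (ξ : LaurentSeries ↥(rangeVal A₀ K₁))
    (hx' : (x' : LaurentSeries K₁) = vIota (rangeVal A₀ K₁) ξ)
    (hξ : Transcendental (IsLocalRing.ResidueField ↥(rangeVal A₀ K₁))
      (vRho (rangeVal A₀ K₁) ξ))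
    (w : ModelField K₁ N) (H : A₀[X]) (hH : ¬ C ϖ ∣ H)
    (hint : IntX (A := A₀) x' (aeval x' H * w)) :
    (w : LaurentSeries K₁) ∈ vGaussRing (rangeVal A₀ K₁) := by
  have hHmem := gc_aeval_mem x' ξ hx' H
  have hHred : vGaussRed (rangeVal A₀ K₁) ⟨_, hHmem⟩ =
      vRho (rangeVal A₀ K₁) (evSeries ξ H) := by
    rw [← vGaussRed_vIota]
    congr 1
    exact Subtype.ext (vIota_evSeries x' ξ hx' H).symm
  have hHred0 : vGaussRed (rangeVal A₀ K₁) ⟨_, hHmem⟩ ≠ 0 := by
    rw [hHred, vRho_evSeries]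
    intro h0
    exact gc_map_ne_zero hϖ hH ((transcendental_iff.mp hξ) _ h0)
  have hHinv := inv_mem_vGaussRing (rangeVal A₀ K₁) hHred0
  have hH0 : ((aeval x' H : ModelField K₁ N) : LaurentSeries K₁) ≠ 0 := by
    intro h0
    apply hHred0
    have : (⟨_, hHmem⟩ : vGaussRing (rangeVal A₀ K₁)) = 0 := Subtype.ext h0
    rw [this, map_zero]
  -- `β = H(x') w` is integral over the Gauss valuation ring
  have hrange : ∀ G : A₀[X], evX (A := A₀) x' G ∈ (mgVal (rangeVal A₀ K₁) N).toSubring :=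
    fun G => gc_aeval_mem x' ξ hx' G
  let g : A₀[X] →+* ↥(mgVal (rangeVal A₀ K₁) N) :=
    (evX (A := A₀) x').codRestrict (mgVal (rangeVal A₀ K₁) N).toSubring hrange
  have hcomp : (algebraMap ↥(mgVal (rangeVal A₀ K₁) N) (ModelField K₁ N)).comp g =
      evX (A := A₀) x' := by
    ext <;> rfl
  obtain ⟨p, hp, hpy⟩ := hint
  have hβint : IsIntegral ↥(mgVal (rangeVal A₀ K₁) N) (aeval x' H * w) := by
    refine ⟨p.map g, hp.map g, ?_⟩
    rw [eval₂_map, hcomp]
    exact hpy
  obtain ⟨β, hβ⟩ := IsIntegrallyClosed.isIntegral_iff.mp hβint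
  have hβG : ((aeval x' H * w : ModelField K₁ N) : LaurentSeries K₁) ∈
      vGaussRing (rangeVal A₀ K₁) := by
    rw [← hβ]
    exact β.2
  have hw : (w : LaurentSeries K₁) =
      ((aeval x' H : ModelField K₁ N) : LaurentSeries K₁)⁻¹ *
        ((aeval x' H * w : ModelField K₁ N) : LaurentSeries K₁) := by
    have : ((aeval x' H * w : ModelField K₁ N) : LaurentSeries K₁) =
        ((aeval x' H : ModelField K₁ N) : LaurentSeries K₁) * (w : LaurentSeries K₁) := rfl
    rw [this, ← mul_assoc, inv_mul_cancel₀ hH0, one_mul]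
  rw [hw]
  exact mul_mem hHinv hβG

/-- An element of `E₀` whose `q`-expansion lies in the Gauss ring is a quotient of elements of
`E₀` with `A₀`-integral `q`-expansions, the denominator being primitive. -/
theorem gc_exists (w : ModelField K₁ N)
    (hw : (w : LaurentSeries K₁) ∈ vGaussRing (rangeVal A₀ K₁)) :
    ∃ a b : ModelField K₁ N,
      (∀ n : ℤ, (a : LaurentSeries K₁).coeff n ∈ (algebraMap A₀ K₁).range) ∧
      (∀ n : ℤ, (b : LaurentSeries K₁).coeff n ∈ (algebraMap A₀ K₁).range) ∧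
      (∃ (n : ℤ) (c : A₀), IsUnit c ∧ algebraMap A₀ K₁ c = (b : LaurentSeries K₁).coeff n) ∧
      w * b = a := by
  by_cases hw0 : w = 0
  · refine ⟨0, 1, fun n => ⟨0, by simp⟩, fun n => ?_, ⟨0, 1, isUnit_one, ?_⟩, by rw [hw0, zero_mul]⟩
    · show ((1 : LaurentSeries K₁)).coeff n ∈ (algebraMap A₀ K₁).range
      rw [HahnSeries.coeff_one]
      split_ifs
      · exact ⟨1, map_one _⟩
      · exact ⟨0, map_zero _⟩
    · show algebraMap A₀ K₁ 1 = ((1 : LaurentSeries K₁)).coeff 0
      rw [HahnSeries.coeff_one, if_pos rfl, map_one]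
  have hw0' : (w : LaurentSeries K₁) ≠ 0 := fun h => hw0 (Subtype.ext h)
  obtain ⟨c, a, b, hc, haF, hbF, hra, hrb, h⟩ := exists_gnf N (rangeVal A₀ K₁) w.2 hw0'
  have hcA : c ∈ rangeVal A₀ K₁ := by
    refine mem_of_algebraMap_mul_mem (rangeVal A₀ K₁)
      (u := ⟨_, vIota_mem_vGaussRing (rangeVal A₀ K₁) a⟩)
      (by rw [vGaussRed_vIota]; exact hra) ?_
    show algebraMap K₁ (LaurentSeries K₁) c * vIota (rangeVal A₀ K₁) a ∈
      vGaussRing (rangeVal A₀ K₁)
    rw [← h]
    exact mul_mem hw (vIota_mem_vGaussRing (rangeVal A₀ K₁) b)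
  refine ⟨⟨algebraMap K₁ (LaurentSeries K₁) c * vIota (rangeVal A₀ K₁) a,
      mul_mem (IntermediateField.algebraMap_mem _ c) haF⟩,
    ⟨vIota (rangeVal A₀ K₁) b, hbF⟩, ?_, ?_, ?_, Subtype.ext h⟩
  · intro n
    show (algebraMap K₁ (LaurentSeries K₁) c * vIota (rangeVal A₀ K₁) a).coeff n ∈
      (algebraMap A₀ K₁).range
    rw [coeff_algebraMap_mul, vIota_coeff]
    exact (rangeVal A₀ K₁).mul_mem _ _ hcA (a.coeff n).2
  · intro n
    exact (b.coeff n).2
  · obtain ⟨m, hm⟩ := (vRho_ne_zero_iff (rangeVal A₀ K₁) b).mp hrb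
    obtain ⟨c₀, hc₀⟩ := toRangeVal_surjective A₀ K₁ (b.coeff m)
    refine ⟨m, c₀, ?_, ?_⟩
    · rw [← isUnit_toRangeVal_iff A₀ K₁, hc₀]
      exact hm
    · show algebraMap A₀ K₁ c₀ = ((b.coeff m : ↥(rangeVal A₀ K₁)) : K₁)
      rw [← hc₀]
      rfl

end Core

section Main

variable {K₁ : Type} [Field K₁] [Algebra ℚ K₁]

theorem gc_coeffEmb_jq (A₁ : ValuationSubring K₁) :
    coeffEmb K₁ jq = vIota A₁ (jqModC ↥A₁) :=
  mg_coeffEmb_jq A₁

theorem gc_qExpand_jq (A₁ : ValuationSubring K₁) (q : ℕ) [NeZero q] :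
    qExpand K₁ q (coeffEmb K₁ jq) = vIota A₁ (qExpand ↥A₁ q (jqModC ↥A₁)) := by
  rw [vIota, coeffMap_qExpand, ← vIota, ← mg_coeffEmb_jq A₁]

theorem gc_vRho_qExpand_jq (A₁ : ValuationSubring K₁) (q : ℕ) [NeZero q] :
    vRho A₁ (qExpand ↥A₁ q (jqModC ↥A₁)) =
      qExpand (IsLocalRing.ResidueField ↥A₁) q (jqModC (IsLocalRing.ResidueField ↥A₁)) := by
  rw [vRho, coeffMap_qExpand, coeffMap_jqModC]

theorem gc_transcendental_qExpand_jq (k : Type*) [Field k] (q : ℕ) [NeZero q] :
    Transcendental k (qExpand k q (jqModC k)) := by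
  apply Fermat.Agent.H58.kltr_transcendental_of_order_ne_zero
  have hc : (qExpand k q (jqModC k)).coeff ((q : ℤ) * (-1)) ≠ 0 := by
    rw [qExpand_coeff_mul, ModularCurve.coeff_jqModC_neg_one]
    exact one_ne_zero
  have := HahnSeries.order_le_of_coeff_ne_zero hc
  have hq : (0 : ℤ) < q := by exact_mod_cast Nat.pos_of_ne_zero (NeZero.ne q)
  nlinarith

end Main

/-- **Row 748 (SS-GC)**: `C(x) ⊆ V_∞ ∩ V_0`. -/
theorem modelGaussConverse (M q : ℕ) [NeZero M] [NeZero q] :
    Fermat.Agent.H82.SS.ModelGaussConverseStatement M q jq := by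
  intro K₁ _ _ _ A₀ _ _ _ _ _ _ _ _hq ϖ hϖ x hx W hW z hz
  have hxtr : Transcendental A₀ x :=
    Fermat.Agent.H58.modelTranscendental_jq (M * q) K₁ A₀ x hx
  obtain ⟨H, hH, hint⟩ := (mem_gaussClosure_iff hxtr ϖ z).mp hz
  constructor
  · -- the cusp `∞`
    apply gc_exists
    refine gc_core hϖ x (jqModC _) (by rw [hx, mg_coeffEmb_jq]) ?_ z H hH hint
    rw [mg_vRho_jq]
    exact mg_transcendental_jqModC _
  · -- the cusp `0`: apply `W`
    have hjq : jq ∈ modularFunctionFieldFull M := by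
      have := jqd_mem_full M (one_dvd M)
      rwa [qExpand_one_apply] at this
    have hjM : coeffEmb K₁ jq ∈ laurentBaseChange K₁ (modularFunctionFieldFull M) :=
      coeffEmb_mem_laurentBaseChange K₁ hjq
    let jM : ModelField K₁ M := ⟨coeffEmb K₁ jq, hjM⟩
    have hxα : x = heckeAlphaBar K₁ M q jM := by
      apply Subtype.ext
      rw [coe_heckeAlphaBar, hx]
    have hWx : ((W x : ModelField K₁ (M * q)) : LaurentSeries K₁) =
        qExpand K₁ q (coeffEmb K₁ jq) := by
      rw [hxα, hW.1, coe_heckeBetaBar]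
    -- transport integrality along `W`
    have hWA : ∀ a : A₀, W (algebraMap A₀ (ModelField K₁ (M * q)) a) =
        algebraMap A₀ (ModelField K₁ (M * q)) a := by
      intro a
      rw [IsScalarTower.algebraMap_apply A₀ K₁ (ModelField K₁ (M * q)), AlgEquiv.commutes]
    have hWev : (W : ModelField K₁ (M * q) →+* ModelField K₁ (M * q)).comp (evX (A := A₀) x) =
        evX (A := A₀) (W x) := by
      apply Polynomial.ringHom_ext
      · intro a
        show W (aeval x (C a)) = aeval (W x) (C a)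
        rw [aeval_C, aeval_C, hWA]
      · show W (aeval x X) = aeval (W x) X
        rw [aeval_X, aeval_X]
    have hWint : IntX (A := A₀) (W x) (aeval (W x) H * W z) := by
      obtain ⟨p, hp, hpy⟩ := hint
      refine ⟨p, hp, ?_⟩
      have h1 := Polynomial.hom_eval₂ p (evX (A := A₀) x)
        (W : ModelField K₁ (M * q) →+* ModelField K₁ (M * q)) (aeval x H * z)
      rw [hpy, map_zero, hWev] at h1
      have h2 : (W : ModelField K₁ (M * q) →+* ModelField K₁ (M * q)) (aeval x H * z) =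
          aeval (W x) H * W z := by
        show W (aeval x H * z) = aeval (W x) H * W z
        rw [map_mul]
        congr 1
        exact congrArg (fun f => f H) hWev
      rw [h2] at h1
      exact h1.symm
    have hWz : ((W z : ModelField K₁ (M * q)) : LaurentSeries K₁) ∈
        vGaussRing (rangeVal A₀ K₁) := by
      refine gc_core hϖ (W x) (qExpand _ q (jqModC _)) (by rw [hWx, gc_qExpand_jq]) ?_
        (W z) H hH hWint
      rw [gc_vRho_qExpand_jq]
      exact gc_transcendental_qExpand_jq _ q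
    obtain ⟨a, b, ha, hb, hbu, hab⟩ := gc_exists (W z) hWz
    refine ⟨W.symm a, W.symm b, ?_, ?_, ?_, ?_⟩
    · rw [AlgEquiv.apply_symm_apply]
      exact ha
    · rw [AlgEquiv.apply_symm_apply]
      exact hb
    · rw [AlgEquiv.apply_symm_apply]
      exact hbu
    · apply W.injective
      rw [map_mul, AlgEquiv.apply_symm_apply, AlgEquiv.apply_symm_apply]
      exact hab

end Fermat.Agent.H55.SS
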