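import Fermat.Agent.H55.SS.KTContract
import Fermat.Agent.H55.SS.GaussConverse
import Fermat.Agent.H65.E6.ModelGauss

/-!
# P-SS / S35, block (KT) : the OBJECTS and the exact statements of the concrete rows (helper55)

Level `M q`, `q` prime, `q ∤ M`.  `K₁` a number field, `A₀` a discrete valuation ring of `K₁`
with uniformiser `q` (UNRAMIFIED base), `φ₁` a Frobenius lift (`IsModelFrobenius K₁ A₀ q φ₁`).

* `ktV K₁ A₀ N` : the Gauss valuation subring of `ModelField K₁ N` (`q`-expansion in helper66's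
  Gauss ring of `A₁ = rangeVal A₀ K₁`); `V' = ktV K₁ A₀ M`, `V_∞ = ktV K₁ A₀ (M q)`.
* `ktV0 K₁ A₀ M q W` : `V_0 = W⁻¹ V_∞` for the Atkin-Lehner automorphism `W`.
* `KtS2CoreStatement` (row KT-A3, Mathlib only) : from the tables to `G₁ / Γ ^ n ≡ 1`.
* `ModelVal2Statement M q` (row KT-C1), `ModelNormRed2Statement M q` (row KT-C2),
  `ModelFrobStatement M q` (row KT-C3), `ModelLocDataStatement M q` (row KT-C4).
-/

set_option autoImplicit false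
set_option linter.unusedSectionVars false
set_option linter.style.haveILetI false

noncomputable section

namespace Fermat.Agent.H55.SS

open AlgebraicCurve ModularCurve
open Fermat.Agent.H22.KL
open Fermat.Agent.H11.SS2
open Fermat.Agent.H82.SS

/-! ## The objects -/

/-- The Gauss valuation subring of the model field of level `N` (elements whose `q`-expansion is
a quotient `a / b` of `A₀`-integral series with `b` primitive). -/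
def ktV (K₁ : Type) [Field K₁] [Algebra ℚ K₁] (A₀ : Type) [CommRing A₀] [IsDomain A₀]
    [ValuationRing A₀] [Algebra A₀ K₁] [IsFractionRing A₀ K₁] (N : ℕ) :
    ValuationSubring (ModelField K₁ N) :=
  Fermat.Agent.H65.mgVal (rangeVal A₀ K₁) N

/-- The second vertical valuation `V_0 = W⁻¹ V_∞` of level `M q`. -/
def ktV0 (K₁ : Type) [Field K₁] [Algebra ℚ K₁] (A₀ : Type) [CommRing A₀] [IsDomain A₀]
    [ValuationRing A₀] [Algebra A₀ K₁] [IsFractionRing A₀ K₁] (M q : ℕ)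
    (W : ModelField K₁ (M * q) ≃ₐ[K₁] ModelField K₁ (M * q)) :
    ValuationSubring (ModelField K₁ (M * q)) :=
  (ktV K₁ A₀ (M * q)).comap (W : ModelField K₁ (M * q) →+* ModelField K₁ (M * q))

theorem mem_ktV_iff (K₁ : Type) [Field K₁] [Algebra ℚ K₁] (A₀ : Type) [CommRing A₀]
    [IsDomain A₀] [ValuationRing A₀] [Algebra A₀ K₁] [IsFractionRing A₀ K₁] (N : ℕ)
    (f : ModelField K₁ N) :
    f ∈ ktV K₁ A₀ N ↔ (f : LaurentSeries K₁) ∈ Fermat.Agent.H66.vGaussRing (rangeVal A₀ K₁) :=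
  Iff.rfl

theorem mem_ktV0_iff (K₁ : Type) [Field K₁] [Algebra ℚ K₁] (A₀ : Type) [CommRing A₀]
    [IsDomain A₀] [ValuationRing A₀] [Algebra A₀ K₁] [IsFractionRing A₀ K₁] (M q : ℕ)
    (W : ModelField K₁ (M * q) ≃ₐ[K₁] ModelField K₁ (M * q)) (f : ModelField K₁ (M * q)) :
    f ∈ ktV0 K₁ A₀ M q W ↔ W f ∈ ktV K₁ A₀ (M * q) :=
  Iff.rfl

/-! ## Row KT-A3 : the abstract core of the reductions -/

/-- **KT-A3 (S2CORE)**, Mathlib only.  `E'` (level `M`), `E` (level `M q`), `α β : E' → E`,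
valuation subrings `V'` of `E'`, `V₁ = V_∞`, `V₂ = V_0` of `E`, a Frobenius lift `φ'`, `φ`
commuting with `α`, `β` and the norms `Na`, `Nb`.  TABLES: invariance of the valuations, residue
degree one (`F1`, `F2`), the two norm reductions (`Ra`, `Rb`), Frobenius on the constants `K`,
weak approximation.  INPUT: `f` with `Na f = γ h ^ n`, `Nb f = γ' h' ^ n` (`γ, γ' ∈ K`).
OUTPUT: `Γ` with `G₁ / Γ ^ n ≡ 1` modulo `𝔪_{V₁}` and `𝔪_{V₂}`, where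
`G₁ = (Ψ - Q)(Ψ - 1)² f`, `Ψ = φ²`. -/
def KtS2CoreStatement : Prop :=
  ∀ (E' E : Type) [Field E'] [Field E] (α β : E' →+* E)
    (V' : ValuationSubring E') (V₁ V₂ : ValuationSubring E)
    (φ' : E' ≃+* E') (φ : E ≃+* E) (Na Nb : E →* E') (K : Subfield E') (Q : ℕ),
    (∀ y, φ (α y) = α (φ' y)) → (∀ y, φ (β y) = β (φ' y)) →
    (∀ z, Na (φ z) = φ' (Na z)) → (∀ z, Nb (φ z) = φ' (Nb z)) →
    -- (INV) the Frobenius lift preserves the valuations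
    (∀ z : E, z ≠ 0 → φ z / z ∈ V₁ ∧ z / φ z ∈ V₁) →
    (∀ z : E, z ≠ 0 → φ z / z ∈ V₂ ∧ z / φ z ∈ V₂) →
    (∀ y : E', y ≠ 0 → φ' y / y ∈ V' ∧ y / φ' y ∈ V') →
    -- (T1)
    (∀ y : E', α y ∈ V₁ ↔ y ∈ V') → (∀ y : E', β y ∈ V₂ ↔ y ∈ V') →
    -- (F1), (F2) residue degree one
    (∀ z ∈ V₁, ∃ y ∈ V', z - α y ∈ V₁.nonunits) →
    (∀ z ∈ V₂, ∃ y ∈ V', z - β y ∈ V₂.nonunits) →
    -- (Ra), (Rb) the two norm reductions
    (∀ z : E, z ∈ V₁ → z⁻¹ ∈ V₁ → z ∈ V₂ → z⁻¹ ∈ V₂ → ∀ y ∈ V', z - β y ∈ V₂.nonunits →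
      α (Na z) - z * α (φ' y) ∈ V₁.nonunits) →
    (∀ z : E, z ∈ V₁ → z⁻¹ ∈ V₁ → z ∈ V₂ → z⁻¹ ∈ V₂ → ∀ y ∈ V', z - α y ∈ V₁.nonunits →
      β (Nb z) - z * β (φ' y) ∈ V₂.nonunits) →
    -- (CONST) the constants
    (∀ c ∈ K, φ' c ∈ K) →
    (∀ c ∈ K, c ∈ V' → c⁻¹ ∈ V' → φ' (φ' c) / c ^ Q - 1 ∈ V'.nonunits) →
    -- (APPROX)
    (∀ a b : E, ∃ g : E, g - a ∈ V₁.nonunits ∧ g - b ∈ V₂.nonunits) →
    ∀ (n : ℕ), 0 < n → ∀ (f : E), f ≠ 0 → ∀ (γ γ' h h' : E'), γ ∈ K → γ' ∈ K →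
      γ ≠ 0 → γ' ≠ 0 → h ≠ 0 → h' ≠ 0 →
      Na f = γ * h ^ n → Nb f = γ' * h' ^ n →
      ∃ Γ : E, Γ ≠ 0 ∧
        ktQuot (fun z => φ (φ z)) Q (ktQuot (fun z => φ (φ z)) 1
          (ktQuot (fun z => φ (φ z)) 1 f)) / Γ ^ n - 1 ∈ V₁.nonunits ∧
        ktQuot (fun z => φ (φ z)) Q (ktQuot (fun z => φ (φ z)) 1
          (ktQuot (fun z => φ (φ z)) 1 f)) / Γ ^ n - 1 ∈ V₂.nonunits

/-! ## Row KT-C1 : the two vertical valuations and their tables -/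

/-- **KT-C1 (VAL2)** at level `M q` over an unramified base. -/
def ModelVal2Statement (M q : ℕ) [NeZero M] [NeZero q] : Prop :=
  ∀ (K₁ : Type) [Field K₁] [Algebra ℚ K₁] [FiniteDimensional ℚ K₁]
    (A₀ : Type) [CommRing A₀] [IsDomain A₀] [IsDiscreteValuationRing A₀]
    [Algebra A₀ K₁] [IsFractionRing A₀ K₁]
    [Algebra A₀ (ModelField K₁ (M * q))] [IsScalarTower A₀ K₁ (ModelField K₁ (M * q))],
    Irreducible ((q : ℕ) : A₀) →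
    ∀ (x : ModelField K₁ (M * q)), (x : LaurentSeries K₁) = coeffEmb K₁ jq →
    ∀ (W : ModelField K₁ (M * q) ≃ₐ[K₁] ModelField K₁ (M * q)), IsAtkinLehnerModel K₁ M q W →
    ∀ (φ₁ : K₁ ≃ₐ[ℚ] K₁), IsModelFrobenius K₁ A₀ q φ₁ →
      -- (hC) exactly two vertical valuations
      (∀ z : ModelField K₁ (M * q),
        z ∈ gaussClosure A₀ (ModelField K₁ (M * q)) ((q : ℕ) : A₀) x ↔
          z ∈ ktV K₁ A₀ (M * q) ∧ z ∈ ktV0 K₁ A₀ M q W) ∧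
      ktV K₁ A₀ (M * q) ≠ ktV0 K₁ A₀ M q W ∧
      KtVert q (ktV K₁ A₀ (M * q)) ∧ KtVert q (ktV0 K₁ A₀ M q W) ∧
      IsVertical A₀ (ModelField K₁ (M * q)) ((q : ℕ) : A₀) x (ktV K₁ A₀ (M * q)) ∧
      IsVertical A₀ (ModelField K₁ (M * q)) ((q : ℕ) : A₀) x (ktV0 K₁ A₀ M q W) ∧
      -- (APPROX)
      (∀ a b : ModelField K₁ (M * q), ∃ g : ModelField K₁ (M * q),
        g - a ∈ (ktV K₁ A₀ (M * q)).nonunits ∧ g - b ∈ (ktV0 K₁ A₀ M q W).nonunits) ∧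
      -- (INV) the coefficientwise Frobenius lift preserves the three valuations
      (∀ z : ModelField K₁ (M * q), z ≠ 0 →
        modelSigma K₁ (M * q) φ₁ z / z ∈ ktV K₁ A₀ (M * q) ∧
        z / modelSigma K₁ (M * q) φ₁ z ∈ ktV K₁ A₀ (M * q)) ∧
      (∀ z : ModelField K₁ (M * q), z ≠ 0 →
        modelSigma K₁ (M * q) φ₁ z / z ∈ ktV0 K₁ A₀ M q W ∧
        z / modelSigma K₁ (M * q) φ₁ z ∈ ktV0 K₁ A₀ M q W) ∧
      (∀ y : ModelField K₁ M, y ≠ 0 →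
        modelSigma K₁ M φ₁ y / y ∈ ktV K₁ A₀ M ∧ y / modelSigma K₁ M φ₁ y ∈ ktV K₁ A₀ M) ∧
      -- (T1)
      (∀ y : ModelField K₁ M, heckeAlphaBar K₁ M q y ∈ ktV K₁ A₀ (M * q) ↔ y ∈ ktV K₁ A₀ M) ∧
      (∀ y : ModelField K₁ M, heckeBetaBar K₁ M q y ∈ ktV0 K₁ A₀ M q W ↔ y ∈ ktV K₁ A₀ M) ∧
      -- (F1), (F2) residue degree one
      (∀ z ∈ ktV K₁ A₀ (M * q), ∃ y ∈ ktV K₁ A₀ M,
        z - heckeAlphaBar K₁ M q y ∈ (ktV K₁ A₀ (M * q)).nonunits) ∧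
      (∀ z ∈ ktV0 K₁ A₀ M q W, ∃ y ∈ ktV K₁ A₀ M,
        z - heckeBetaBar K₁ M q y ∈ (ktV0 K₁ A₀ M q W).nonunits)

/-! ## Row KT-C2 : the two norm reductions -/

/-- **KT-C2 (NORMRED2)** at level `M q` over an unramified base:
`α (N_α z) ≡ z · α (φ y)` modulo `𝔪_{V_∞}` if `z ≡ β y` modulo `𝔪_{V_0}`, and the `W`-twin. -/
def ModelNormRed2Statement (M q : ℕ) [NeZero M] [NeZero q] : Prop :=
  ∀ (K₁ : Type) [Field K₁] [Algebra ℚ K₁] [FiniteDimensional ℚ K₁]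
    (A₀ : Type) [CommRing A₀] [IsDomain A₀] [IsDiscreteValuationRing A₀]
    [Algebra A₀ K₁] [IsFractionRing A₀ K₁],
    Irreducible ((q : ℕ) : A₀) →
    ∀ (W : ModelField K₁ (M * q) ≃ₐ[K₁] ModelField K₁ (M * q)), IsAtkinLehnerModel K₁ M q W →
    ∀ (φ₁ : K₁ ≃ₐ[ℚ] K₁), IsModelFrobenius K₁ A₀ q φ₁ →
    ∀ z : ModelField K₁ (M * q),
      z ∈ ktV K₁ A₀ (M * q) → z⁻¹ ∈ ktV K₁ A₀ (M * q) →
      z ∈ ktV0 K₁ A₀ M q W → z⁻¹ ∈ ktV0 K₁ A₀ M q W →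
      (∀ y ∈ ktV K₁ A₀ M, z - heckeBetaBar K₁ M q y ∈ (ktV0 K₁ A₀ M q W).nonunits →
        heckeAlphaBar K₁ M q (ss2NormAlong (heckeAlphaBar K₁ M q) z)
          - z * heckeAlphaBar K₁ M q (modelSigma K₁ M φ₁ y) ∈ (ktV K₁ A₀ (M * q)).nonunits) ∧
      (∀ y ∈ ktV K₁ A₀ M, z - heckeAlphaBar K₁ M q y ∈ (ktV K₁ A₀ (M * q)).nonunits →
        heckeBetaBar K₁ M q (ss2NormAlong (heckeBetaBar K₁ M q) z)
          - z * heckeBetaBar K₁ M q (modelSigma K₁ M φ₁ y) ∈ (ktV0 K₁ A₀ M q W).nonunits)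

/-! ## Row KT-C3 : the Frobenius lift on the model -/

/-- **KT-C3 (FROB)**: `Ψ = φ₁²` (coefficientwise) preserves `A₀` and the coordinate, is the
`q²`-power map on the roots of unity of order prime to `q`, and fixes the closed points lying on
both components (FR-3: the nodes are `𝔽_{q²}`-rational). -/
def ModelFrobStatement (M q : ℕ) [NeZero M] [NeZero q] : Prop :=
  ∀ (K₁ : Type) [Field K₁] [Algebra ℚ K₁] [FiniteDimensional ℚ K₁]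
    (A₀ : Type) [CommRing A₀] [IsDomain A₀] [IsDiscreteValuationRing A₀]
    [Algebra A₀ K₁] [IsFractionRing A₀ K₁]
    [Algebra A₀ (ModelField K₁ (M * q))] [IsScalarTower A₀ K₁ (ModelField K₁ (M * q))],
    Irreducible ((q : ℕ) : A₀) →
    ∀ (x : ModelField K₁ (M * q)), (x : LaurentSeries K₁) = coeffEmb K₁ jq →
    ∀ (W : ModelField K₁ (M * q) ≃ₐ[K₁] ModelField K₁ (M * q)), IsAtkinLehnerModel K₁ M q W →
    ∀ (φ₁ : K₁ ≃ₐ[ℚ] K₁), IsModelFrobenius K₁ A₀ q φ₁ →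
      (∀ a : A₀, ∃ b : A₀, modelSigma K₁ (M * q) (φ₁.trans φ₁)
        (algebraMap A₀ (ModelField K₁ (M * q)) a) = algebraMap A₀ (ModelField K₁ (M * q)) b) ∧
      (∀ a : A₀, ∃ b : A₀, (modelSigma K₁ (M * q) (φ₁.trans φ₁)).symm
        (algebraMap A₀ (ModelField K₁ (M * q)) a) = algebraMap A₀ (ModelField K₁ (M * q)) b) ∧
      modelSigma K₁ (M * q) (φ₁.trans φ₁) x = x ∧
      (∀ n : ℕ, IsUnit ((n : ℕ) : A₀) → ∀ c : A₀, c ^ n = 1 →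
        modelSigma K₁ (M * q) (φ₁.trans φ₁) (algebraMap A₀ (ModelField K₁ (M * q)) c) =
          algebraMap A₀ (ModelField K₁ (M * q)) (c ^ (q ^ 2))) ∧
      (∀ y : ModelField K₁ (M * q), y = x ∨ y = x⁻¹ →
        ∀ 𝔪 : Ideal (chartClosure A₀ (ModelField K₁ (M * q)) y), 𝔪.IsMaximal →
          algebraMap A₀ (chartClosure A₀ (ModelField K₁ (M * q)) y) ((q : ℕ) : A₀) ∈ 𝔪 →
          Through A₀ (ModelField K₁ (M * q)) y 𝔪 (ktV K₁ A₀ (M * q)) →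
          Through A₀ (ModelField K₁ (M * q)) y 𝔪 (ktV0 K₁ A₀ M q W) →
          ∀ s : chartClosure A₀ (ModelField K₁ (M * q)) y, s ∈ 𝔪 →
            ∀ h : modelSigma K₁ (M * q) (φ₁.trans φ₁) (s : ModelField K₁ (M * q)) ∈
                chartClosure A₀ (ModelField K₁ (M * q)) y,
              (⟨modelSigma K₁ (M * q) (φ₁.trans φ₁) (s : ModelField K₁ (M * q)), h⟩ :
                chartClosure A₀ (ModelField K₁ (M * q)) y) ∈ 𝔪)

/-! ## Row KT-C4 : the local data -/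

/-- **KT-C4 (LOCDATA)**: for every `u ≡ 1` on both components whose divisor is divisible by
`n`, the LPZ data `KtLoc` at every closed point of the special fibre, in both charts. -/
def ModelLocDataStatement (M q : ℕ) [NeZero M] [NeZero q] : Prop :=
  ∀ (K₁ : Type) [Field K₁] [Algebra ℚ K₁] [FiniteDimensional ℚ K₁]
    (A₀ : Type) [CommRing A₀] [IsDomain A₀] [IsDiscreteValuationRing A₀]
    [Algebra A₀ K₁] [IsFractionRing A₀ K₁]
    [Algebra A₀ (ModelField K₁ (M * q))] [IsScalarTower A₀ K₁ (ModelField K₁ (M * q))],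
    Irreducible ((q : ℕ) : A₀) →
    ∀ (x : ModelField K₁ (M * q)), (x : LaurentSeries K₁) = coeffEmb K₁ jq →
    ∀ (W : ModelField K₁ (M * q) ≃ₐ[K₁] ModelField K₁ (M * q)), IsAtkinLehnerModel K₁ M q W →
    ∀ (φ₁ : K₁ ≃ₐ[ℚ] K₁), IsModelFrobenius K₁ A₀ q φ₁ →
    ∀ (n : ℕ), 0 < n → IsUnit ((n : ℕ) : A₀) → ∀ ζ : A₀, IsPrimitiveRoot ζ n →
    ∀ u : ModelField K₁ (M * q), u ≠ 0 →
      u - 1 ∈ (ktV K₁ A₀ (M * q)).nonunits → u - 1 ∈ (ktV0 K₁ A₀ M q W).nonunits →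
      (∀ P : Place K₁ (ModelField K₁ (M * q)), (n : ℤ) ∣ P.ord u) →
      ∀ y : ModelField K₁ (M * q), y = x ∨ y = x⁻¹ →
        ∀ 𝔪 : Ideal (chartClosure A₀ (ModelField K₁ (M * q)) y), 𝔪.IsMaximal →
          algebraMap A₀ (chartClosure A₀ (ModelField K₁ (M * q)) y) ((q : ℕ) : A₀) ∈ 𝔪 →
          KtLoc A₀ (ModelField K₁ (M * q)) n y (modelSigma K₁ (M * q) (φ₁.trans φ₁))
            (ktV K₁ A₀ (M * q)) (ktV0 K₁ A₀ M q W) u 𝔪

end Fermat.Agent.H55.SS
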