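import Mathlib
import Fermat.Agent.H11.SS2.Contract
import Fermat.Agent.H11.SS2.Defs
import Fermat.Agent.H82.SS.Contract
import Fermat.Prelude.Def_EllipticCurve_FrobeniusTrace

/-!
# P-SS / S35, block (KT) : CONTRACT and exact statements of the rows (helper55, architect)

`q ∥ M = L q` (`q ∤ L`), `φ` a Frobenius lift at a place `A` over `q`, `ψ = φ²`, `Q = q²`.
`N = ker α_* ∩ ker β_* ⊆ J₀(L q)` the `q`-new part, `I = I_A` the inertia group.

**(KT)** : on `N[m]^I` (`q ∤ m`) the operator `Θ = (ψ - Q)² (ψ - 1)²` vanishes.  No bounded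
factor.  Together with the lattice form of S34 this gives the local clause of S35
(`Fermat.Agent.H55.SS.newformLattice_of_unipChain`, module `KTGlue`).

Multiplicatively on functions: `ktQuot ψ k g = ψ g / g ^ k`, and
`ktTheta ψ Q f = ktQuot ψ Q (ktQuot ψ Q (ktQuot ψ 1 (ktQuot ψ 1 f)))`.

* `ToricFrobFFStatement L q` : **(KT-FF)**, the function-field form over `ℚ̄` (same hypotheses as
  `Fermat.Agent.H11.SS2.NewInvariantFFStatement`, conclusion `ktTheta … f` is an `m`-th power).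
* `IsModelFrobenius`, `ModelToricStatement M q` : the model-level form over a number field `K₁`
  with a discrete valuation ring `A₀` in which `q` is a uniformiser (UNRAMIFIED base) and a
  Frobenius lift `φ₁` of `K₁`.
* `KtVert`, `KtTwo`, `KtOne`, `KtLoc`, `KtAbsStatement` : the abstract assembly (row KT-A2):
  two vertical valuations, an automorphism `Ψ` which is the `Q`-power map on `μ_n` and fixes the
  closed points lying on both components; local data with roots of unity at every closed point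
  ⟹ `Ψ u / u ^ Q` is an `n`-th power.
* `LPZTwoStatement` : local principalisation with roots of unity at a node (row KT-A1).
-/

set_option autoImplicit false
set_option linter.unusedSectionVars false

noncomputable section

namespace Fermat.Agent.H55.SS

open AlgebraicCurve ModularCurve
open Fermat.Agent.H22.KL
open Fermat.Agent.H11.SS2

/-! ## The operator `Θ` on functions -/

section Theta

variable {F : Type*} [Field F]

/-- `ψ(g) / g ^ k`: the multiplicative form of `ψ - k`. -/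
def ktQuot (ψ : F → F) (k : ℕ) (g : F) : F := ψ g / g ^ k

/-- `Θ f`, the multiplicative form of `(ψ - Q)² (ψ - 1)²`. -/
def ktTheta (ψ : F → F) (Q : ℕ) (f : F) : F :=
  ktQuot ψ Q (ktQuot ψ Q (ktQuot ψ 1 (ktQuot ψ 1 f)))

theorem ktQuot_mul (ψ : F →* F) (k : ℕ) (g h : F) :
    ktQuot ψ k (g * h) = ktQuot ψ k g * ktQuot ψ k h := by
  unfold ktQuot
  rw [map_mul, mul_pow, mul_div_mul_comm]

theorem ktQuot_one (ψ : F →* F) (k : ℕ) : ktQuot ψ k 1 = 1 := by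
  unfold ktQuot
  rw [map_one, one_pow, div_one]

theorem ktQuot_pow (ψ : F →* F) (k : ℕ) (g : F) (n : ℕ) :
    ktQuot ψ k (g ^ n) = ktQuot ψ k g ^ n := by
  unfold ktQuot
  rw [map_pow, ← pow_mul, mul_comm n k, pow_mul, div_pow]

theorem ktQuot_ne_zero (ψ : F →* F) (hψ : ∀ g : F, g ≠ 0 → ψ g ≠ 0) (k : ℕ) {g : F}
    (hg : g ≠ 0) : ktQuot ψ k g ≠ 0 :=
  div_ne_zero (hψ g hg) (pow_ne_zero k hg)

theorem ktTheta_mul (ψ : F →* F) (Q : ℕ) (g h : F) :
    ktTheta ψ Q (g * h) = ktTheta ψ Q g * ktTheta ψ Q h := by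
  unfold ktTheta
  rw [ktQuot_mul, ktQuot_mul, ktQuot_mul, ktQuot_mul]

theorem ktTheta_pow (ψ : F →* F) (Q : ℕ) (g : F) (n : ℕ) :
    ktTheta ψ Q (g ^ n) = ktTheta ψ Q g ^ n := by
  unfold ktTheta
  rw [ktQuot_pow, ktQuot_pow, ktQuot_pow, ktQuot_pow]

end Theta

/-! ## (KT-FF): the contract with the `J`-side -/

/-- **(KT-FF)** at level `L q` (intended: `q` prime, `q ∤ L`, and the auxiliary level condition
`4 ∣ L` for `q` odd resp. `9 ∣ L` for `q = 2`).  If `div f = m D` (`q ∤ m`), the class of `D` is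
fixed by the inertia group `I_A` and both norms `N_α f`, `N_β f` are `m`-th powers, then
`Θ f = (φ² - q²)² (φ² - 1)² f` is an `m`-th power. -/
def ToricFrobFFStatement (L q : ℕ) [NeZero L] [NeZero q] : Prop :=
  ∀ (A : ValuationSubring (AlgebraicClosure ℚ)), A.LiesOverPrime q →
    ∀ φ : AlgebraicClosure ℚ ≃ₐ[ℚ] AlgebraicClosure ℚ, A.IsFrobeniusAt φ q →
    ∀ (m : ℕ), 0 < m → ¬ q ∣ m →
      ∀ f : modularFunctionFieldBar (L * q), f ≠ 0 →
        (∀ P : Place (AlgebraicClosure ℚ) (modularFunctionFieldBar (L * q)),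
          (m : ℤ) ∣ P.ord f) →
        (∀ σ ∈ A.inertiaSubgroupIn ℚ, ∃ w : modularFunctionFieldBar (L * q),
          w ^ m * f = arithmeticGalois (modularFunctionFieldFull (L * q)) σ • f) →
        (∃ h : modularFunctionFieldBar L,
          h ^ m = ss2NormAlong (heckeAlphaBar (AlgebraicClosure ℚ) L q) f) →
        (∃ h : modularFunctionFieldBar L,
          h ^ m = ss2NormAlong (heckeBetaBar (AlgebraicClosure ℚ) L q) f) →
        ∃ w : modularFunctionFieldBar (L * q),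
          w ^ m = ktTheta (fun g : modularFunctionFieldBar (L * q) =>
            arithmeticGalois (modularFunctionFieldFull (L * q)) φ •
              arithmeticGalois (modularFunctionFieldFull (L * q)) φ • g) (q ^ 2) f

/-! ## The model-level statement -/

/-- `φ₁` preserves `A₀` and induces the `q`-power map on its residue field. -/
def IsModelFrobenius (K₁ : Type) [Field K₁] [Algebra ℚ K₁] (A₀ : Type) [CommRing A₀]
    [Algebra A₀ K₁] (q : ℕ) (φ₁ : K₁ ≃ₐ[ℚ] K₁) : Prop :=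
  ∀ a : A₀, ∃ b : A₀, algebraMap A₀ K₁ b = φ₁ (algebraMap A₀ K₁ a) ∧ ¬ IsUnit (b - a ^ q)

/-- **(KT-MODEL)** at level `M q` over an UNRAMIFIED base (`q` is a uniformiser of `A₀`), with a
Frobenius lift `φ₁` of `K₁`; `K₁` contains the `m`-th roots of unity and an `m`-th root of the
leading coefficient of `Θ f`.  Constants are allowed in the two norm hypotheses. -/
def ModelToricStatement (M q : ℕ) [NeZero M] [NeZero q] : Prop :=
  ∀ (K₁ : Type) [Field K₁] [Algebra ℚ K₁] [FiniteDimensional ℚ K₁]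
    (A₀ : Type) [CommRing A₀] [IsDomain A₀] [IsDiscreteValuationRing A₀]
    [Algebra A₀ K₁] [IsFractionRing A₀ K₁],
    Irreducible ((q : ℕ) : A₀) →
    ∀ (φ₁ : K₁ ≃ₐ[ℚ] K₁), IsModelFrobenius K₁ A₀ q φ₁ →
    ∀ (m : ℕ), 0 < m → IsUnit ((m : ℕ) : A₀) → (∃ ζ : K₁, IsPrimitiveRoot ζ m) →
    ∀ f : ModelField K₁ (M * q), f ≠ 0 →
      (∀ P : Place K₁ (ModelField K₁ (M * q)), (m : ℤ) ∣ P.ord f) →
      (∃ (γ : K₁) (h : ModelField K₁ M), γ ≠ 0 ∧
        algebraMap K₁ _ γ * h ^ m = ss2NormAlong (heckeAlphaBar K₁ M q) f) →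
      (∃ (γ : K₁) (h : ModelField K₁ M), γ ≠ 0 ∧
        algebraMap K₁ _ γ * h ^ m = ss2NormAlong (heckeBetaBar K₁ M q) f) →
      (∃ κ : K₁, κ ^ m =
        ((ktTheta (Fermat.Agent.H82.SS.modelSigma K₁ (M * q) (φ₁.trans φ₁)) (q ^ 2) f :
          ModelField K₁ (M * q)) : LaurentSeries K₁).leadingCoeff) →
      ∃ w : ModelField K₁ (M * q),
        w ^ m = ktTheta (Fermat.Agent.H82.SS.modelSigma K₁ (M * q) (φ₁.trans φ₁)) (q ^ 2) f

/-! ## The abstract assembly (row KT-A2) -/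

/-- What is used of a vertical valuation `V` over an unramified base: `q` is a uniformiser of
`V`, and `V` is archimedean. -/
structure KtVert {E₀ : Type} [Field E₀] (q : ℕ) (V : ValuationSubring E₀) : Prop where
  q_mem : (q : E₀) ∈ V.nonunits
  unif : ∀ y ∈ V.nonunits, y / (q : E₀) ∈ V
  arch : ∀ s ∈ V.nonunits, ∀ c : E₀, ∃ N₀ : ℕ, ∀ N : ℕ, N₀ ≤ N → s ^ N * c ∈ V.nonunits

/-- The valuation `W` does not pass through `𝔪`. -/
def KtAway (A : Type) [CommRing A] (E₀ : Type) [Field E₀] [Algebra A E₀] (y : E₀)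
    (𝔪 : Ideal (chartClosure A E₀ y)) (W : ValuationSubring E₀) : Prop :=
  ∃ s : chartClosure A E₀ y, (s : E₀) ∈ W.nonunits ∧ s ∉ 𝔪

/-- LPZ data at a closed point `𝔪` lying on both components (a node): `𝔪` is stable under `Ψ`,
and `u` is locally a unit times the `n`-th power of `Hinv⁻¹`, where `Hinv ≡ cᵢ` on `Vᵢ` with
`n`-th roots of unity `c₁, c₂ ∈ A`. -/
def KtTwo (A : Type) [CommRing A] (E₀ : Type) [Field E₀] [Algebra A E₀] (n : ℕ) (y : E₀)
    (Ψ : E₀ ≃+* E₀) (V₁ V₂ : ValuationSubring E₀) (u : E₀)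
    (𝔪 : Ideal (chartClosure A E₀ y)) : Prop :=
  (∀ s : chartClosure A E₀ y, s ∈ 𝔪 → ∀ h : Ψ (s : E₀) ∈ chartClosure A E₀ y,
    (⟨Ψ (s : E₀), h⟩ : chartClosure A E₀ y) ∈ 𝔪) ∧
  ∃ (Hinv : E₀) (c₁ c₂ : A), c₁ ^ n = 1 ∧ c₂ ^ n = 1 ∧
    CongrAt E₀ V₁ Hinv (algebraMap A E₀ c₁) ∧ CongrAt E₀ V₂ Hinv (algebraMap A E₀ c₂) ∧
    IsLocUnit A E₀ y 𝔪 (u * Hinv ^ n)

/-- LPZ data at a closed point on exactly one component `V` (`W` does not pass through it). -/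
def KtOne (A : Type) [CommRing A] (E₀ : Type) [Field E₀] [Algebra A E₀] (n : ℕ) (y : E₀)
    (V W : ValuationSubring E₀) (u : E₀) (𝔪 : Ideal (chartClosure A E₀ y)) : Prop :=
  Through A E₀ y 𝔪 V ∧ KtAway A E₀ y 𝔪 W ∧
    ∃ Hinv : E₀, CongrAt E₀ V Hinv 1 ∧ IsLocUnit A E₀ y 𝔪 (u * Hinv ^ n)

/-- The local hypothesis at a closed point `𝔪` of the chart `B(y)`. -/
def KtLoc (A : Type) [CommRing A] (E₀ : Type) [Field E₀] [Algebra A E₀] (n : ℕ) (y : E₀)
    (Ψ : E₀ ≃+* E₀) (V₁ V₂ : ValuationSubring E₀) (u : E₀)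
    (𝔪 : Ideal (chartClosure A E₀ y)) : Prop :=
  KtTwo A E₀ n y Ψ V₁ V₂ u 𝔪 ∨ KtOne A E₀ n y V₁ V₂ u 𝔪 ∨ KtOne A E₀ n y V₂ V₁ u 𝔪

/-- **KT-A2 (KTABS)**: the abstract assembly.  Chart setting of
`Fermat.Agent.H45.klssAbs_general` over an unramified base (`ϖ = q`), exactly two vertical
valuations `V₁, V₂` (`C(x) = V₁ ∩ V₂`), an automorphism `Ψ` of `E₀` preserving `A`, `x`, `V₁`,
`V₂`, acting on the `n`-th roots of unity of `A` as the `Q`-th power; `u ≡ 1` on `V₁` and `V₂`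
with LPZ data at every closed point of both charts.  Then `Ψ u / u ^ Q` is an `n`-th power.
(The roots of unity of the LPZ data at the nodes are killed by `Ψ - Q` because the nodes are
`Ψ`-stable; at the other closed points `Ψ` transports the data from `Ψ⁻¹ 𝔪` to `𝔪`.) -/
def KtAbsStatement : Prop :=
  ∀ (A : Type) [CommRing A] [IsDomain A] [IsDiscreteValuationRing A]
    (E₀ Ω : Type) [Field E₀] [Field Ω] [Algebra A E₀] [Algebra A Ω] [Algebra E₀ Ω]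
    [IsScalarTower A E₀ Ω] [CharZero E₀],
    Function.Injective (algebraMap A E₀) →
    ∀ (q : ℕ), q.Prime → Irreducible ((q : ℕ) : A) →
    ∀ (x : E₀), Transcendental A x →
    (∃ d : ℕ, Nonempty (Module.Basis (Fin d) (chartField A E₀ x) E₀)) →
    (∀ z : Ω, IsIntegral A z → z ∈ (algebraMap A Ω).range) →
    ∀ (n : ℕ), 0 < n → IsUnit ((n : ℕ) : A) → ∀ (ζ : A), IsPrimitiveRoot ζ n →
    ∀ (V₁ V₂ : ValuationSubring E₀), V₁ ≠ V₂ →
    (∀ z : E₀, z ∈ gaussClosure A E₀ ((q : ℕ) : A) x ↔ z ∈ V₁ ∧ z ∈ V₂) →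
    KtVert q V₁ → KtVert q V₂ →
    (∀ a b : E₀, ∃ g : E₀, g - a ∈ V₁.nonunits ∧ g - b ∈ V₂.nonunits) →
    ∀ (Ψ : E₀ ≃+* E₀) (Q : ℕ), 0 < Q →
    (∀ a : A, ∃ b : A, Ψ (algebraMap A E₀ a) = algebraMap A E₀ b) →
    (∀ a : A, ∃ b : A, Ψ.symm (algebraMap A E₀ a) = algebraMap A E₀ b) →
    Ψ x = x →
    (∀ z : E₀, z ∈ V₁ ↔ Ψ z ∈ V₁) → (∀ z : E₀, z ∈ V₂ ↔ Ψ z ∈ V₂) →
    (∀ c : A, c ^ n = 1 → Ψ (algebraMap A E₀ c) = algebraMap A E₀ (c ^ Q)) →
    ∀ (u : E₀), u - 1 ∈ V₁.nonunits → u - 1 ∈ V₂.nonunits →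
    (∀ 𝔪 : Ideal (chartClosure A E₀ x), 𝔪.IsMaximal →
      algebraMap A (chartClosure A E₀ x) ((q : ℕ) : A) ∈ 𝔪 →
      KtLoc A E₀ n x Ψ V₁ V₂ u 𝔪) →
    (∀ 𝔪 : Ideal (chartClosure A E₀ x⁻¹), 𝔪.IsMaximal →
      algebraMap A (chartClosure A E₀ x⁻¹) ((q : ℕ) : A) ∈ 𝔪 →
      KtLoc A E₀ n x⁻¹ Ψ V₁ V₂ u 𝔪) →
    (∃ ω : Ω, ω ^ n = algebraMap E₀ Ω (Ψ u / u ^ Q)) →
    ∃ w₀ : E₀, w₀ ^ n = Ψ u / u ^ Q

/-! ## LPZ at a node (row KT-A1) -/

/-- **LPZ, two branches** (row KT-A1): at a regular point `𝔪 = (z₁, z₂)` through which exactly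
the two vertical valuations `V₁, V₂` pass, with local equations `z₁`, `z₂` (a node
`z₁ z₂ = q · unit`), a function `u ≡ 1` on the two branches which is locally a unit times an
`n`-th power (`n` prime to the residue characteristic, `μ_n ⊆ A`) has a local `n`-th root
`Hinv⁻¹` with `Hinv ≡ cᵢ` on `Vᵢ`, `cᵢ ∈ μ_n(A)`.
(Gluing: `(z₁) + (z₂) = 𝔪 B_𝔪`, so `B_𝔪 / (z₁ z₂) = B_𝔪 / z₁ ×_{k(𝔪)} B_𝔪 / z₂`; instance of
`Fermat.Agent.H47.SS2` LPZ core with `N = 1`, `e₁ = z₂`, `e₂ = z₁`.) -/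
def LPZTwoStatement : Prop :=
  ∀ (A : Type) [CommRing A] [IsDomain A] [IsDiscreteValuationRing A]
    (E₀ : Type) [Field E₀] [Algebra A E₀] [CharZero E₀],
    Function.Injective (algebraMap A E₀) →
    ∀ (ϖ : A), Irreducible ϖ → ∀ (y : E₀), Transcendental A y →
    (∃ n : ℕ, Nonempty (Module.Basis (Fin n) (chartField A E₀ y) E₀)) →
    ∀ (q : ℕ), q.Prime → ¬ IsUnit ((q : ℕ) : A) →
    ∀ (𝔪 : Ideal (chartClosure A E₀ y)), 𝔪.IsMaximal →
      algebraMap A (chartClosure A E₀ y) ϖ ∈ 𝔪 →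
      ∀ (V₁ V₂ : ValuationSubring E₀) (z₁ z₂ : E₀), V₁ ≠ V₂ →
        IsRegPoint A E₀ ϖ y 𝔪 V₁ z₁ z₂ → IsRegPoint A E₀ ϖ y 𝔪 V₂ z₂ z₁ →
        (∀ V' : ValuationSubring E₀, IsVertical A E₀ ϖ y V' → Through A E₀ y 𝔪 V' →
          V' = V₁ ∨ V' = V₂) →
        ∀ (n : ℕ), 0 < n → IsUnit ((n : ℕ) : A) → ∀ ζ : A, IsPrimitiveRoot ζ n →
        ∀ u p : E₀, CongrAt E₀ V₁ u 1 → CongrAt E₀ V₂ u 1 → p ≠ 0 →
          IsLocUnit A E₀ y 𝔪 (u * p ^ n) →
          ∃ (Hinv : E₀) (c₁ c₂ : A), c₁ ^ n = 1 ∧ c₂ ^ n = 1 ∧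
            IsLocUnit A E₀ y 𝔪 (u * Hinv ^ n) ∧
            CongrAt E₀ V₁ Hinv (algebraMap A E₀ c₁) ∧
            CongrAt E₀ V₂ Hinv (algebraMap A E₀ c₂)

end Fermat.Agent.H55.SS
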