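import Fermat.Agent.H71.SS.S35Kolchin

/-!
# P-SS / S35, block (KT) : lattice glue, CHAIN form (helper55)

The geometric proof of (KT) (function-field form `ToricFrobFFStatement`, module
`Fermat.Agent.H55.SS.KTContract`) gives, on the inertia invariants of the `q`-new torsion, the
identity

  `(φ² - q²)² (φ² - 1)² = 0`

(no bounded factor; the two factors `φ² - 1` remove the component group and the abelian part,
the two factors `φ² - q²` remove the constants and the gluing roots of unity).  This file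
contains the Mathlib-only algebra turning this identity into the local clause of
`Fermat.Agent.H52.NewformLatticeStatement`:

* `kt_eigen_of_sq_vec` : a nonzero vector `w` with `Φ² w = c² w` gives an eigenvector of `Φ`
  with eigenvalue `c` or `-c`.
* `kt_eigen_of_chain` : a nonzero vector killed by `(Φ² - c²)² (Φ² - 1)²` gives an eigenvector
  of `Φ` with eigenvalue `1`, `-1`, `c` or `-c`.
* `kt_eigen_of_unipotent_of_chain` : Kolchin (`Fermat.Agent.H52.es_exists_fixed_of_unipotent`)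
  + chain.
* `NewformUnipChainLatticeStatement`, `newformLattice_of_unipChain` : the lattice statement with
  local clause (u) `(τ - 1)² = 0` on inertia and (KT) on the inertia invariants; it implies
  `Fermat.Agent.H52.NewformLatticeStatement` (hence the frozen S35 by `H52.s35_of_lattice`).
* `ktElt φ q : MonoidAlgebra ℤ G` : the element `(φ² - q²)² (φ² - 1)²` of the group ring, and
  `lift_ktElt` : its image under `MonoidAlgebra.lift` (for the master transfer of
  `Fermat.Agent.H52.tateMachineFull`).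
-/

set_option autoImplicit false
set_option linter.unusedSectionVars false
set_option linter.style.haveILetI false

namespace Fermat.Agent.H55.SS

open Module

section Algebra

variable {O : Type*} [CommRing O] {Λ : Type*} [AddCommGroup Λ] [Module O Λ]

/-- A nonzero vector `w` with `Φ² w = c² w` gives an eigenvector with eigenvalue `± c`. -/
theorem kt_eigen_of_sq_vec (Φ : Module.End O Λ) (c : O) (w : Λ) (hw : w ≠ 0)
    (h : Φ (Φ w) = (c * c) • w) :
    ∃ v : Λ, v ≠ 0 ∧ (Φ v = c • v ∨ Φ v = -(c • v)) := by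
  by_cases h3 : Φ w + c • w = 0
  · exact ⟨w, hw, Or.inr (eq_neg_of_add_eq_zero_left h3)⟩
  · refine ⟨Φ w + c • w, h3, Or.inl ?_⟩
    rw [map_add, map_smul, h, smul_add, mul_smul]
    abel

/-- A nonzero vector killed by `Φ² - c²` gives an eigenvector with eigenvalue `± c`. -/
theorem kt_eigen_of_kill (Φ : Module.End O Λ) (c : O) (w : Λ) (hw : w ≠ 0)
    (h : (Φ * Φ - (c * c) • (1 : Module.End O Λ)) w = 0) :
    ∃ v : Λ, v ≠ 0 ∧ (Φ v = c • v ∨ Φ v = -(c • v)) := by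
  refine kt_eigen_of_sq_vec Φ c w hw ?_
  have h1 : Φ (Φ w) - (c * c) • w = 0 := by
    simpa [LinearMap.sub_apply, Module.End.mul_apply, LinearMap.smul_apply] using h
  exact sub_eq_zero.mp h1

/-- A nonzero vector killed by `Φ² - 1` gives an eigenvector with eigenvalue `± 1`. -/
theorem kt_eigen_of_kill_one (Φ : Module.End O Λ) (w : Λ) (hw : w ≠ 0)
    (h : (Φ * Φ - (1 : Module.End O Λ)) w = 0) :
    ∃ v : Λ, v ≠ 0 ∧ (Φ v = v ∨ Φ v = -v) := by
  have h1 : Φ (Φ w) = ((1 : O) * 1) • w := by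
    have h2 : Φ (Φ w) - w = 0 := by
      simpa [LinearMap.sub_apply, Module.End.mul_apply] using h
    rw [mul_one, one_smul]
    exact sub_eq_zero.mp h2
  obtain ⟨v, hv, hv'⟩ := kt_eigen_of_sq_vec Φ 1 w hw h1
  refine ⟨v, hv, ?_⟩
  rcases hv' with h3 | h3
  · left; rw [h3, one_smul]
  · right; rw [h3, one_smul]

/-- **Chain lemma.**  A nonzero vector killed by `(Φ² - c²)² (Φ² - 1)²` gives an eigenvector of
`Φ` with eigenvalue `1`, `-1`, `c` or `-c`. -/
theorem kt_eigen_of_chain (Φ : Module.End O Λ) (c : O) (w : Λ) (hw : w ≠ 0)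
    (h : (Φ * Φ - (c * c) • (1 : Module.End O Λ)) ((Φ * Φ - (c * c) • (1 : Module.End O Λ))
      ((Φ * Φ - (1 : Module.End O Λ)) ((Φ * Φ - (1 : Module.End O Λ)) w))) = 0) :
    ∃ v : Λ, v ≠ 0 ∧ (Φ v = v ∨ Φ v = -v ∨ Φ v = c • v ∨ Φ v = -(c • v)) := by
  by_cases h1 : (Φ * Φ - (1 : Module.End O Λ)) w = 0
  · obtain ⟨v, hv, hv'⟩ := kt_eigen_of_kill_one Φ w hw h1
    exact ⟨v, hv, hv'.elim Or.inl fun h => Or.inr (Or.inl h)⟩
  by_cases h2 : (Φ * Φ - (1 : Module.End O Λ)) ((Φ * Φ - (1 : Module.End O Λ)) w) = 0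
  · obtain ⟨v, hv, hv'⟩ := kt_eigen_of_kill_one Φ _ h1 h2
    exact ⟨v, hv, hv'.elim Or.inl fun h => Or.inr (Or.inl h)⟩
  by_cases h3 : (Φ * Φ - (c * c) • (1 : Module.End O Λ))
      ((Φ * Φ - (1 : Module.End O Λ)) ((Φ * Φ - (1 : Module.End O Λ)) w)) = 0
  · obtain ⟨v, hv, hv'⟩ := kt_eigen_of_kill Φ c _ h2 h3
    exact ⟨v, hv, Or.inr (Or.inr hv')⟩
  · obtain ⟨v, hv, hv'⟩ := kt_eigen_of_kill Φ c _ h3 h
    exact ⟨v, hv, Or.inr (Or.inr hv')⟩

/-- **Eigenvector from unipotent inertia and the chain identity on the invariants.** -/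
theorem kt_eigen_of_unipotent_of_chain [IsNoetherian O Λ] [Nontrivial Λ]
    (h2 : ∀ v : Λ, v + v = 0 → v = 0)
    {G : Type*} [Group G] (ρ : G →* Module.End O Λ) (H : Subgroup G)
    (hu : ∀ g ∈ H, (ρ g - 1) * (ρ g - 1) = 0)
    (Φ : Module.End O Λ) (c : O)
    (hch : ∀ v : Λ, (∀ g ∈ H, ρ g v = v) →
      (Φ * Φ - (c * c) • (1 : Module.End O Λ)) ((Φ * Φ - (c * c) • (1 : Module.End O Λ))
        ((Φ * Φ - (1 : Module.End O Λ)) ((Φ * Φ - (1 : Module.End O Λ)) v))) = 0) :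
    ∃ v : Λ, v ≠ 0 ∧ (Φ v = v ∨ Φ v = -v ∨ Φ v = c • v ∨ Φ v = -(c • v)) := by
  obtain ⟨w, hw, hfix⟩ := Fermat.Agent.H52.es_exists_fixed_of_unipotent h2 ρ H hu
  exact kt_eigen_of_chain Φ c w hw (hch w hfix)

end Algebra

/-- **The geometric input of S35, unipotent-chain form**: as
`Fermat.Agent.H52.NewformLatticeStatement`, with the local clause at `q ∥ M` replaced by
(u) `(τ - 1)² = 0` for every inertia element `τ` at `q` and
(KT) `(φ² - q²)² (φ² - 1)² v = 0` for every inertia-invariant `v` and Frobenius lift `φ`. -/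
def NewformUnipChainLatticeStatement : Prop :=
  ∀ {M : ℕ} [NeZero M] {g : CuspForm (CongruenceSubgroup.Gamma0 M) 2} (_hg : g.IsNewform)
    (lam : ℕ) [Fact lam.Prime] (S : Finset ℕ)
    (O' : Type) [CommRing O'] [IsDomain O'] [IsDiscreteValuationRing O']
    [IsAdicComplete (IsLocalRing.maximalIdeal O') O'] [Finite (IsLocalRing.ResidueField O')]
    [CharZero O'] (_hlamO' : (lam : O') ∈ IsLocalRing.maximalIdeal O')
    (chig : CuspForm.heckeAlgebra M 2 (↑S : Set ℕ) →+* ℂ)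
    (_hchig : ∀ (ℓ : ℕ) (hℓ : ℓ.Prime) (hℓM : ¬ ℓ ∣ M) (hℓS : ℓ ∉ (↑S : Set ℕ)),
      chig (CuspForm.heckeAlgebra.T hℓ hℓM hℓS) = ModularFormClass.qCoeff g ℓ)
    (iota : chig.range →+* O')
    (_hlamS : lam ∈ S) (_hMS : ∀ q : ℕ, q.Prime → q ∣ M → q ∈ S),
    ∃ (Λ : Type) (_ : AddCommGroup Λ) (_ : Module O' Λ) (_ : Module.Free O' Λ)
      (_ : Module.Finite O' Λ) (_ : Nontrivial Λ)
      (ρ : (AlgebraicClosure ℚ ≃ₐ[ℚ] AlgebraicClosure ℚ) →* Module.End O' Λ),
      GaloisActionIsAdicContinuous O' ρ ∧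
      (∀ (ℓ : ℕ) (hℓ : ℓ.Prime) (hℓM : ¬ ℓ ∣ M) (hℓS : ℓ ∉ (↑S : Set ℕ)),
        ∀ A : ValuationSubring (AlgebraicClosure ℚ), A.LiesOverPrime ℓ →
          ∀ σ : AlgebraicClosure ℚ ≃ₐ[ℚ] AlgebraicClosure ℚ, A.IsFrobeniusAt σ ℓ →
            ρ σ * ρ σ - (iota.comp chig.rangeRestrict) (CuspForm.heckeAlgebra.T hℓ hℓM hℓS) • ρ σ
              + (ℓ : O') • (1 : Module.End O' Λ) = 0) ∧
      (∀ q : ℕ, q.Prime → q ≠ lam → q ∣ M → ¬ q ^ 2 ∣ M →
        ∀ A : ValuationSubring (AlgebraicClosure ℚ), A.LiesOverPrime q →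
          (∀ τ ∈ A.inertiaSubgroupIn ℚ, (ρ τ - 1) * (ρ τ - 1) = 0) ∧
          ∀ φ : AlgebraicClosure ℚ ≃ₐ[ℚ] AlgebraicClosure ℚ, A.IsFrobeniusAt φ q →
            ∀ v : Λ, (∀ τ ∈ A.inertiaSubgroupIn ℚ, ρ τ v = v) →
              (ρ φ * ρ φ - ((q : O') * (q : O')) • (1 : Module.End O' Λ))
                ((ρ φ * ρ φ - ((q : O') * (q : O')) • (1 : Module.End O' Λ))
                  ((ρ φ * ρ φ - (1 : Module.End O' Λ))
                    ((ρ φ * ρ φ - (1 : Module.End O' Λ)) v))) = 0)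

/-- The unipotent-chain form implies the eigenvalue form. -/
theorem newformLattice_of_unipChain (h : NewformUnipChainLatticeStatement) :
    Fermat.Agent.H52.NewformLatticeStatement := by
  intro M _ g hg lam _ S O' _ _ _ _ _ _ hlamO' chig hchig iota hlamS hMS
  obtain ⟨Λ, iA, iM, iFr, iFi, iNt, ρ, hcont, hrel, hloc⟩ :=
    h hg lam S O' hlamO' chig hchig iota hlamS hMS
  refine ⟨Λ, iA, iM, iFr, iFi, iNt, ρ, hcont, hrel, ?_⟩
  intro q hq hqlam hqM hq2 A hA σ hσ
  obtain ⟨hu, hkt⟩ := hloc q hq hqlam hqM hq2 A hA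
  haveI : IsNoetherian O' Λ := isNoetherian_of_isNoetherianRing_of_finite O' Λ
  have h2 : ∀ v : Λ, v + v = 0 → v = 0 := by
    intro v hv
    have h3 : (2 : O') • v = 0 := by rw [two_smul]; exact hv
    rcases smul_eq_zero.mp h3 with h4 | h4
    · exact absurd h4 two_ne_zero
    · exact h4
  exact kt_eigen_of_unipotent_of_chain h2 ρ (A.inertiaSubgroupIn ℚ) hu (ρ σ) (q : O')
    (hkt σ hσ)

/-! ## The group-ring element -/

section GroupRing

variable {G : Type*} [Group G]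

/-- The element `(φ² - q²)² (φ² - 1)²` of the integral group ring. -/
noncomputable def ktElt (φ : G) (q : ℕ) : MonoidAlgebra ℤ G :=
  (MonoidAlgebra.of ℤ G φ * MonoidAlgebra.of ℤ G φ - ((q : MonoidAlgebra ℤ G) * q)) ^ 2 *
    (MonoidAlgebra.of ℤ G φ * MonoidAlgebra.of ℤ G φ - 1) ^ 2

/-- The image of `ktElt` under `MonoidAlgebra.lift`. -/
theorem lift_ktElt {R : Type*} [Ring R] (ρ : G →* R) (φ : G) (q : ℕ) :
    MonoidAlgebra.lift ℤ R G ρ (ktElt φ q) =
      (ρ φ * ρ φ - ((q : R) * q)) ^ 2 * (ρ φ * ρ φ - 1) ^ 2 := by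
  unfold ktElt
  simp only [map_mul, map_pow, map_sub, map_one, map_natCast, MonoidAlgebra.lift_of]

/-- The image of `ktElt` under `MonoidAlgebra.lift`, applied to a vector of a module. -/
theorem lift_ktElt_apply {O : Type*} [CommRing O] {Λ : Type*} [AddCommGroup Λ] [Module O Λ]
    (ρ : G →* Module.End O Λ) (φ : G) (q : ℕ) (v : Λ) :
    MonoidAlgebra.lift ℤ (Module.End O Λ) G ρ (ktElt φ q) v =
      (ρ φ * ρ φ - ((q : O) * (q : O)) • (1 : Module.End O Λ))
        ((ρ φ * ρ φ - ((q : O) * (q : O)) • (1 : Module.End O Λ))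
          ((ρ φ * ρ φ - (1 : Module.End O Λ)) ((ρ φ * ρ φ - (1 : Module.End O Λ)) v))) := by
  rw [lift_ktElt]
  have e : ((q : Module.End O Λ) * q) = ((q : O) * (q : O)) • (1 : Module.End O Λ) := by
    apply LinearMap.ext
    intro x
    simp [Module.End.mul_apply, mul_smul, Nat.cast_smul_eq_nsmul]
  rw [e, pow_two, pow_two]
  rfl

end GroupRing

end Fermat.Agent.H55.SS
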