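import Fermat.Agent.H55.SS.KTModel
import Fermat.Agent.H16.KTS2Core
import Fermat.Agent.H45.SS.LocalGen
import Fermat.Agent.H22.ES.KLAsmCore
import Fermat.Agent.H93.KL.AsmStepB

/-!
# P-SS / S35, block (KT), row KT-C5 : generic lemmas for the model-level assembly (helper55)

* `ktNormHom φ` : the norm along `φ` as a monoid homomorphism; equivariance `ktNormHom_equiv`.
* `OrdDvd` calculus (`kta_ordDvd_mul`, `kta_ordDvd_div`, `kta_ordDvd_pow_self`,
  `kta_ordDvd_map`, `kta_ordDvd_ktQuot`) and the dictionary with `Place.ord`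
  (`kta_ordDvd_all_of_places`, `kta_dvd_ord_of_ordDvd`).
* `ktQuot` calculus with quotients, orders of Laurent series (`kta_order_ktQuot_one`, …).
-/

set_option autoImplicit false
set_option linter.unusedSectionVars false
set_option linter.style.haveILetI false

noncomputable section

namespace Fermat.Agent.H55.SS

open AlgebraicCurve ModularCurve
open Fermat.Agent.H22.KL
open Fermat.Agent.H11.SS2
open Fermat.Agent.H82.SS

/-! ## The norm as a monoid homomorphism -/

section Norm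

variable {K F F' : Type*} [Field K] [Field F] [Field F'] [Algebra K F] [Algebra K F']

/-- The norm along `φ : F → F'` as a monoid homomorphism `F' →* F`. -/
def ktNormHom (φ : F →ₐ[K] F') : F' →* F :=
  letI : Algebra F F' := φ.toRingHom.toAlgebra
  Algebra.norm F

theorem ktNormHom_apply (φ : F →ₐ[K] F') (z : F') : ktNormHom φ z = ss2NormAlong φ z := rfl

/-- Equivariance of the norm: if `σ ∘ φ = φ ∘ σ'` then `N (σ z) = σ' (N z)`. -/
theorem ktNormHom_equiv (φ : F →ₐ[K] F') (σ' : F ≃+* F) (σ : F' ≃+* F')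
    (h : ∀ y : F, σ (φ y) = φ (σ' y)) (z : F') :
    ktNormHom φ (σ z) = σ' (ktNormHom φ z) := by
  letI : Algebra F F' := φ.toRingHom.toAlgebra
  have he : RingHom.comp (algebraMap F F') (σ' : F →+* F)
      = RingHom.comp (σ : F' →+* F') (algebraMap F F') := by
    ext y
    exact (h y).symm
  have h1 := Algebra.norm_eq_of_equiv_equiv σ' σ he z
  show Algebra.norm F (σ z) = σ' (Algebra.norm F z)
  rw [h1, RingEquiv.apply_symm_apply]

end Norm

/-! ## `OrdDvd` calculus -/

section Ord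

variable {E : Type} [Field E]

theorem kta_ordDvd_mul (V : ValuationSubring E) (n : ℕ) {a b : E}
    (ha : OrdDvd E V n a) (hb : OrdDvd E V n b) : OrdDvd E V n (a * b) := by
  obtain ⟨s, hs, hs1, hs2⟩ := ha
  obtain ⟨t, ht, ht1, ht2⟩ := hb
  refine ⟨s * t, mul_ne_zero hs ht, ?_, ?_⟩
  · have e : a * b * (s * t) ^ n = a * s ^ n * (b * t ^ n) := by ring
    rw [e]
    exact V.mul_mem _ _ hs1 ht1
  · have e : (a * b * (s * t) ^ n)⁻¹ = (a * s ^ n)⁻¹ * (b * t ^ n)⁻¹ := by
      rw [← mul_inv]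
      congr 1
      ring
    rw [e]
    exact V.mul_mem _ _ hs2 ht2

theorem kta_ordDvd_inv (V : ValuationSubring E) (n : ℕ) {a : E}
    (ha : OrdDvd E V n a) : OrdDvd E V n a⁻¹ := by
  obtain ⟨s, hs, hs1, hs2⟩ := ha
  refine ⟨s⁻¹, inv_ne_zero hs, ?_, ?_⟩
  · have e : a⁻¹ * s⁻¹ ^ n = (a * s ^ n)⁻¹ := by
      rw [inv_pow, ← mul_inv]
    rw [e]
    exact hs2
  · have e : (a⁻¹ * s⁻¹ ^ n)⁻¹ = a * s ^ n := by
      rw [inv_pow, ← mul_inv, inv_inv]
    rw [e]
    exact hs1

theorem kta_ordDvd_div (V : ValuationSubring E) (n : ℕ) {a b : E}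
    (ha : OrdDvd E V n a) (hb : OrdDvd E V n b) : OrdDvd E V n (a / b) := by
  rw [div_eq_mul_inv]
  exact kta_ordDvd_mul V n ha (kta_ordDvd_inv V n hb)

theorem kta_ordDvd_one (V : ValuationSubring E) (n : ℕ) : OrdDvd E V n (1 : E) :=
  ⟨1, one_ne_zero, by simp [V.one_mem], by simp [V.one_mem]⟩

theorem kta_ordDvd_pow (V : ValuationSubring E) (n : ℕ) {a : E}
    (ha : OrdDvd E V n a) (k : ℕ) : OrdDvd E V n (a ^ k) := by
  induction k with
  | zero => rw [pow_zero]; exact kta_ordDvd_one V n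
  | succ k ih => rw [pow_succ]; exact kta_ordDvd_mul V n ih ha

/-- An `n`-th power has order divisible by `n`. -/
theorem kta_ordDvd_pow_self (V : ValuationSubring E) (n : ℕ) {a : E} (ha : a ≠ 0) :
    OrdDvd E V n (a ^ n) := by
  refine ⟨a⁻¹, inv_ne_zero ha, ?_, ?_⟩
  · have e : a ^ n * a⁻¹ ^ n = 1 := by
      rw [← mul_pow, mul_inv_cancel₀ ha, one_pow]
    rw [e]
    exact V.one_mem
  · have e : a ^ n * a⁻¹ ^ n = 1 := by
      rw [← mul_pow, mul_inv_cancel₀ ha, one_pow]
    rw [e, inv_one]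
    exact V.one_mem

/-- Transport along an automorphism. -/
theorem kta_ordDvd_map (V : ValuationSubring E) (n : ℕ) (Ψ : E ≃+* E) {a : E}
    (ha : OrdDvd E (V.comap (Ψ : E →+* E)) n a) : OrdDvd E V n (Ψ a) := by
  obtain ⟨s, hs, hs1, hs2⟩ := ha
  refine ⟨Ψ s, (map_ne_zero_iff Ψ Ψ.injective).mpr hs, ?_, ?_⟩
  · have h := ValuationSubring.mem_comap.mp hs1
    rwa [RingEquiv.coe_toRingHom, map_mul, map_pow] at h
  · have h := ValuationSubring.mem_comap.mp hs2
    rwa [RingEquiv.coe_toRingHom, map_inv₀, map_mul, map_pow] at h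

variable (A : Type) [CommRing A] [Algebra A E]

/-- `ktQuot Ψ k` preserves "order divisible by `n` at all places". -/
theorem kta_ordDvd_ktQuot (hinj : Function.Injective (algebraMap A E)) (n : ℕ) (Ψ : E ≃+* E)
    (hΨA : ∀ a : A, ∃ b : A, Ψ (algebraMap A E a) = algebraMap A E b) (k : ℕ) {g : E}
    (hg : ∀ V : ValuationSubring E, IsPlace A E V → OrdDvd E V n g) :
    ∀ V : ValuationSubring E, IsPlace A E V → OrdDvd E V n (ktQuot Ψ k g) := by
  intro V hV
  unfold ktQuot
  refine kta_ordDvd_div V n ?_ (kta_ordDvd_pow V n (hg V hV) k)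
  exact kta_ordDvd_map V n Ψ (hg _ (Fermat.Agent.H45.ss_isPlace_comap hinj Ψ hΨA hV))

end Ord

section Places

variable {K₁ : Type} [Field K₁] {E : Type} [Field E] [Algebra K₁ E]

/-- From the prelude places to `IsPlace`. -/
theorem kta_ordDvd_all_of_places {A₀ : Type} [CommRing A₀] [Algebra A₀ K₁]
    [IsFractionRing A₀ K₁] [Algebra A₀ E] [IsScalarTower A₀ K₁ E] (n : ℕ) {g : E} (hg0 : g ≠ 0)
    (hg : ∀ P : Place K₁ E, (n : ℤ) ∣ P.ord g) :
    ∀ V : ValuationSubring E, IsPlace A₀ E V → OrdDvd E V n g := by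
  intro V hV
  obtain ⟨P, rfl⟩ := klAsm_exists_place (K₁ := K₁) V hV
  exact klAsm_ordDvd_of_place P n g hg0 (hg P)

/-- A prelude place is a place in the sense of `IsPlace`. -/
theorem kta_isPlace_of_place {A₀ : Type} [CommRing A₀] [Algebra A₀ K₁]
    [IsFractionRing A₀ K₁] [Algebra A₀ E] [IsScalarTower A₀ K₁ E] (P : Place K₁ E) :
    IsPlace A₀ E P.toValuationSubring := by
  refine ⟨P.ne_top', P.isPrincipalIdealRing', fun a _ => ⟨?_, ?_⟩⟩
  · rw [IsScalarTower.algebraMap_apply A₀ K₁ E]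
    exact P.algebraMap_mem' _
  · rw [IsScalarTower.algebraMap_apply A₀ K₁ E, ← map_inv₀]
    exact P.algebraMap_mem' _

/-- From `OrdDvd` back to the divisibility of `ord_P`. -/
theorem kta_dvd_ord_of_ordDvd (P : Place K₁ E) (n : ℕ) {g : E} (hg0 : g ≠ 0)
    (hg : OrdDvd E P.toValuationSubring n g) : (n : ℤ) ∣ P.ord g := by
  obtain ⟨t, ht, h1, h2⟩ := hg
  have hw0 : g * t ^ n ≠ 0 := mul_ne_zero hg0 (pow_ne_zero n ht)
  have ha : 0 ≤ P.ord (g * t ^ n) := Fermat.Agent.H23.ord_nonneg_of_mem P h1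
  have hb : 0 ≤ P.ord (g * t ^ n)⁻¹ := Fermat.Agent.H23.ord_nonneg_of_mem P h2
  rw [P.ord_inv] at hb
  have h0 : P.ord (g * t ^ n) = 0 := le_antisymm (by linarith) ha
  rw [P.ord_mul hg0 (pow_ne_zero n ht), ← zpow_natCast, P.ord_zpow] at h0
  refine ⟨-P.ord t, ?_⟩
  linarith

end Places

/-! ## `ktQuot` with quotients -/

section Quot

variable {F : Type*} [Field F]

theorem ktQuot_div (ψ : F →* F) (k : ℕ) (g : F) {h : F} (hh : h ≠ 0) :
    ktQuot ψ k (g / h) = ktQuot ψ k g / ktQuot ψ k h := by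
  unfold ktQuot
  have h1 : ψ (g / h) * ψ h = ψ g := by
    rw [← map_mul, div_mul_cancel₀ _ hh]
  have h2 : ψ h ≠ 0 := by
    intro h0
    have : ψ (h * h⁻¹) = 1 := by rw [mul_inv_cancel₀ hh, map_one]
    rw [map_mul, h0, zero_mul] at this
    exact zero_ne_one this
  have h3 : ψ (g / h) = ψ g / ψ h := by
    rw [eq_div_iff h2, h1]
  rw [h3, div_pow]
  field_simp

end Quot

/-! ## Orders of Laurent series -/

section Order

variable {K₁ : Type} [Field K₁]

theorem kta_order_div {a b : LaurentSeries K₁} (ha : a ≠ 0) (hb : b ≠ 0) :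
    (a / b).order = a.order - b.order := by
  have h0 : a / b ≠ 0 := div_ne_zero ha hb
  have h1 : a / b * b = a := div_mul_cancel₀ _ hb
  have h2 := congrArg HahnSeries.order h1
  rw [HahnSeries.order_mul h0 hb] at h2
  linarith

theorem kta_order_pow (a : LaurentSeries K₁) (k : ℕ) : (a ^ k).order = k * a.order := by
  rw [HahnSeries.order_pow, nsmul_eq_mul]

theorem kta_leadingCoeff_div {a b : LaurentSeries K₁} (hb : b ≠ 0) :
    (a / b).leadingCoeff = a.leadingCoeff / b.leadingCoeff := by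
  have h1 : a / b * b = a := div_mul_cancel₀ _ hb
  have h2 := congrArg HahnSeries.leadingCoeff h1
  rw [HahnSeries.leadingCoeff_mul] at h2
  rw [eq_div_iff (HahnSeries.leadingCoeff_ne_zero.mpr hb), h2]

end Order

end Fermat.Agent.H55.SS
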