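import Fermat.Agent.H55.SS.KTAsmTable
import Fermat.Agent.H42.SS.KtAbs
import Fermat.Agent.H57.SS.ModelFinite
import Fermat.Agent.H58.KL.ModelTr
import Fermat.Agent.H33.KLM.ModelRoot
import Fermat.Agent.H62.SS.AtkinLehnerModel

/-!
# P-SS / S35, block (KT), row KT-C5 : the model-level assembly (helper55)

`modelToric_of` : `ModelToricStatement M q` (the model-level form of (KT)) from the four concrete
rows

* `ModelVal2Statement M q` (KT-C1), `ModelNormRed2Statement M q` (KT-C2),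
* `ModelFrobStatement M q` (KT-C3), `ModelLocDataStatement M q` (KT-C4),

with the abstract rows plugged in: helper16's `KtTable.exists_gamma_unit` (KT-A3), helper42's
`ktAbs` (KT-A2), and the landed model inputs (`modelTranscendental_jq`, `modelFinite`,
`modelRoot`, `modelConst`, `modelAtkinLehnerExists`).
-/

set_option autoImplicit false
set_option linter.unusedSectionVars false
set_option linter.style.haveILetI false

noncomputable section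

namespace Fermat.Agent.H55.SS

open Polynomial AlgebraicCurve ModularCurve
open Fermat.Agent.H22.KL
open Fermat.Agent.H11.SS2
open Fermat.Agent.H82.SS
open Fermat.Agent.H16

section SeriesOrder

variable {K₁ : Type} [Field K₁] [Algebra ℚ K₁] (N : ℕ)

theorem kta_coe_ktQuot (σ₁ : K₁ ≃ₐ[ℚ] K₁) (k : ℕ) (g : ModelField K₁ N) :
    ((ktQuot (modelSigma K₁ N σ₁) k g : ModelField K₁ N) : LaurentSeries K₁)
      = coeffMap (σ₁ : K₁ →+* K₁) (g : LaurentSeries K₁) / (g : LaurentSeries K₁) ^ k :=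
  rfl

theorem kta_ktQuot_ne_zero (σ₁ : K₁ ≃ₐ[ℚ] K₁) (k : ℕ) {g : ModelField K₁ N} (hg : g ≠ 0) :
    ktQuot (modelSigma K₁ N σ₁) k g ≠ 0 :=
  div_ne_zero ((map_ne_zero_iff _ (modelSigma K₁ N σ₁).injective).mpr hg) (pow_ne_zero k hg)

/-- The order of the `q`-expansion of `ktQuot Ψ k g` is `(1 - k) ord g`. -/
theorem kta_order_ktQuot (σ₁ : K₁ ≃ₐ[ℚ] K₁) (k : ℕ) {g : ModelField K₁ N} (hg : g ≠ 0) :
    ((ktQuot (modelSigma K₁ N σ₁) k g : ModelField K₁ N) : LaurentSeries K₁).order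
      = (g : LaurentSeries K₁).order - k * (g : LaurentSeries K₁).order := by
  have hσ : Function.Injective ((σ₁ : K₁ →+* K₁)) := (σ₁ : K₁ →+* K₁).injective
  have hgL : (g : LaurentSeries K₁) ≠ 0 := fun h => hg (Subtype.ext h)
  have hg1 : coeffMap (σ₁ : K₁ →+* K₁) (g : LaurentSeries K₁) ≠ 0 := fun h =>
    hgL ((Fermat.Agent.H93.KL.coeffMap_eq_zero_iff _ hσ _).mp h)
  rw [kta_coe_ktQuot, kta_order_div hg1 (pow_ne_zero k hgL), kta_order_pow,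
    Fermat.Agent.H93.KL.order_coeffMap _ hσ]

/-- The `q`-expansion of `Θ f` has order `0`. -/
theorem kta_order_ktTheta (σ₁ : K₁ ≃ₐ[ℚ] K₁) (Q : ℕ) {f : ModelField K₁ N} (hf : f ≠ 0) :
    ((ktTheta (modelSigma K₁ N σ₁) Q f : ModelField K₁ N) : LaurentSeries K₁).order = 0 := by
  unfold ktTheta
  have h1 := kta_ktQuot_ne_zero N σ₁ 1 hf
  have h2 := kta_ktQuot_ne_zero N σ₁ 1 h1
  have h3 := kta_ktQuot_ne_zero N σ₁ Q h2
  have o1 : ((ktQuot (modelSigma K₁ N σ₁) 1 f : ModelField K₁ N) : LaurentSeries K₁).order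
      = 0 := by
    rw [kta_order_ktQuot N σ₁ 1 hf]
    push_cast
    ring
  have o2 := kta_order_ktQuot N σ₁ 1 h1
  rw [o1] at o2
  have o3 := kta_order_ktQuot N σ₁ Q h2
  rw [o2] at o3
  have o4 := kta_order_ktQuot N σ₁ Q h3
  rw [o3] at o4
  rw [o4]
  simp

end SeriesOrder

/-- **KT-C5 (MODEL-ASM)**: the model-level form of (KT) from the concrete rows. -/
theorem modelToric_of (M q : ℕ) [NeZero M] [NeZero q] (hq : q.Prime) (hqM : Nat.Coprime M q)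
    (hVal : ModelVal2Statement M q) (hNorm : ModelNormRed2Statement M q)
    (hFrob : ModelFrobStatement M q) (hLoc : ModelLocDataStatement M q) :
    ModelToricStatement M q := by
  intro K₁ _ _ _ A₀ _ _ _ _ _ hqirr φ₁ hφ₁ m hm hmA hζm f hf hord hNa hNb hκ
  classical
  letI algE : Algebra A₀ (ModelField K₁ (M * q)) :=
    ((algebraMap K₁ (ModelField K₁ (M * q))).comp (algebraMap A₀ K₁)).toAlgebra
  haveI towE : IsScalarTower A₀ K₁ (ModelField K₁ (M * q)) :=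
    IsScalarTower.of_algebraMap_eq (fun _ => rfl)
  -- the coordinate
  have hjq : jq ∈ modularFunctionFieldFull (M * q) := by
    have h := jqd_mem_full (M * q) (one_dvd (M * q))
    rwa [qExpand_one_apply] at h
  let x : ModelField K₁ (M * q) := ⟨coeffEmb K₁ jq, coeffEmb_mem_laurentBaseChange K₁ hjq⟩
  have hx : (x : LaurentSeries K₁) = coeffEmb K₁ jq := rfl
  have hinjK : Function.Injective (algebraMap A₀ K₁) := IsFractionRing.injective A₀ K₁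
  -- the instances on `Ω = K₁((q))`
  have hmapΩ : ∀ c : A₀, algebraMap A₀ (LaurentSeries K₁) c
      = algebraMap K₁ (LaurentSeries K₁) (algebraMap A₀ K₁ c) := by
    intro c
    simp [HahnSeries.algebraMap_apply', PowerSeries.algebraMap_apply]
  haveI towK := IsScalarTower.of_algebraMap_eq (R := A₀) (S := K₁) (A := LaurentSeries K₁) hmapΩ
  haveI towΩ := IsScalarTower.of_algebraMap_eq (R := A₀) (S := ModelField K₁ (M * q))
    (A := LaurentSeries K₁) (fun c => by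
      rw [hmapΩ, IsScalarTower.algebraMap_apply A₀ K₁ (ModelField K₁ (M * q))]
      rfl)
  haveI : CharZero K₁ := charZero_of_injective_algebraMap (algebraMap ℚ K₁).injective
  haveI : CharZero (ModelField K₁ (M * q)) :=
    charZero_of_injective_algebraMap (algebraMap K₁ (ModelField K₁ (M * q))).injective
  have hinjE : Function.Injective (algebraMap A₀ (ModelField K₁ (M * q))) := by
    rw [IsScalarTower.algebraMap_eq A₀ K₁ (ModelField K₁ (M * q))]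
    exact (algebraMap K₁ (ModelField K₁ (M * q))).injective.comp hinjK
  have htr : Transcendental A₀ x :=
    Fermat.Agent.H58.modelTranscendental_jq (M * q) K₁ A₀ x hx
  have hfd := Fermat.Agent.H57.SS.modelFinite (M * q) K₁ A₀ x hx
  have hconst : ∀ z : LaurentSeries K₁, IsIntegral A₀ z →
      z ∈ (algebraMap A₀ (LaurentSeries K₁)).range := by
    intro z hz
    have hz1 : IsAlgebraic K₁ z := (hz.tower_top (A := K₁)).isAlgebraic
    obtain ⟨c, rfl⟩ := Fermat.Agent.H93.KL.modelConst K₁ z hz1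
    have hc : IsIntegral A₀ c :=
      (isIntegral_algebraMap_iff (algebraMap K₁ (LaurentSeries K₁)).injective).mp hz
    obtain ⟨d, rfl⟩ := IsIntegrallyClosed.isIntegral_iff.mp hc
    exact ⟨d, hmapΩ d⟩
  -- the primitive root of unity in `A₀`
  obtain ⟨ζ, hζ⟩ : ∃ ζ : A₀, IsPrimitiveRoot ζ m := by
    obtain ⟨ζ, hζ⟩ := hζm
    have hint : IsIntegral A₀ ζ :=
      ⟨X ^ m - 1, monic_X_pow_sub_C 1 hm.ne', by simp [hζ.pow_eq_one]⟩
    obtain ⟨z, hz⟩ := IsIntegrallyClosed.isIntegral_iff.mp hint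
    exact ⟨z, IsPrimitiveRoot.of_map_of_injective (f := algebraMap A₀ K₁) (hz ▸ hζ) hinjK⟩
  -- the Atkin-Lehner automorphism and the tables
  obtain ⟨W, hW⟩ := Fermat.Agent.H62.SS.modelAtkinLehnerExists M q hqM K₁
  have hT := ktTable_of_model M q hVal hNorm K₁ A₀ hqirr x hx W hW φ₁ hφ₁
  obtain ⟨hC, hne, hv1, hv2, -, -, happ, hinv1, hinv2, -, -, -, -, -⟩ :=
    hVal K₁ A₀ hqirr x hx W hW φ₁ hφ₁
  obtain ⟨hΨA, hΨAs, hΨx, hΨμ, -⟩ := hFrob K₁ A₀ hqirr x hx W hW φ₁ hφ₁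
  -- notation
  set Ψ : ModelField K₁ (M * q) ≃+* ModelField K₁ (M * q) :=
    modelSigma K₁ (M * q) (φ₁.trans φ₁) with hΨdef
  have hΨφ : ∀ z : ModelField K₁ (M * q),
      Ψ z = modelSigma K₁ (M * q) φ₁ (modelSigma K₁ (M * q) φ₁ z) :=
    fun z => Fermat.Agent.H65.SS.ktf_psi_apply (M * q) φ₁ z
  -- the norms
  obtain ⟨γ, h, hγ0, hNa'⟩ := hNa
  obtain ⟨γ', h', hγ'0, hNb'⟩ := hNb
  -- step S2 : `Γ`
  obtain ⟨Γ, hΓ0, -, -, -, -, hu1, hu2⟩ := hT.exists_gamma_unit (⇑Ψ) hΨφ hm hf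
    (γ := algebraMap K₁ _ γ) (γ' := algebraMap K₁ _ γ') (h := h) (h' := h')
    ⟨γ, rfl⟩ ⟨γ', rfl⟩ hNa'.symm hNb'.symm
  set G₁ : ModelField K₁ (M * q) := ktQuot (⇑Ψ) (q ^ 2) (ktQuot (⇑Ψ) 1 (ktQuot (⇑Ψ) 1 f))
    with hG₁
  set u : ModelField K₁ (M * q) := G₁ / Γ ^ m with hu
  have hf1 : ktQuot (⇑Ψ) 1 f ≠ 0 := kta_ktQuot_ne_zero (M * q) _ 1 hf
  have hf2 : ktQuot (⇑Ψ) 1 (ktQuot (⇑Ψ) 1 f) ≠ 0 := kta_ktQuot_ne_zero (M * q) _ 1 hf1
  have hG₁0 : G₁ ≠ 0 := kta_ktQuot_ne_zero (M * q) _ (q ^ 2) hf2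
  have hΓm0 : Γ ^ m ≠ 0 := pow_ne_zero m hΓ0
  have hu0 : u ≠ 0 := div_ne_zero hG₁0 hΓm0
  -- divisibility of the divisor of `u`
  have hordf : ∀ V : ValuationSubring (ModelField K₁ (M * q)),
      IsPlace A₀ (ModelField K₁ (M * q)) V → OrdDvd (ModelField K₁ (M * q)) V m f :=
    kta_ordDvd_all_of_places (K₁ := K₁) m hf hord
  have hordu : ∀ V : ValuationSubring (ModelField K₁ (M * q)),
      IsPlace A₀ (ModelField K₁ (M * q)) V → OrdDvd (ModelField K₁ (M * q)) V m u := by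
    intro V hV
    refine kta_ordDvd_div V m ?_ (kta_ordDvd_pow_self V m hΓ0)
    exact kta_ordDvd_ktQuot A₀ hinjE m Ψ hΨA (q ^ 2)
      (kta_ordDvd_ktQuot A₀ hinjE m Ψ hΨA 1 (kta_ordDvd_ktQuot A₀ hinjE m Ψ hΨA 1 hordf)) V hV
  have horduP : ∀ P : Place K₁ (ModelField K₁ (M * q)), (m : ℤ) ∣ P.ord u := fun P =>
    kta_dvd_ord_of_ordDvd P m hu0 (hordu _ (kta_isPlace_of_place (A₀ := A₀) P))
  -- the local data
  have hlocx := hLoc K₁ A₀ hqirr x hx W hW φ₁ hφ₁ m hm hmA ζ hζ u hu0 hu1 hu2 horduP x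
    (Or.inl rfl)
  have hlocxi := hLoc K₁ A₀ hqirr x hx W hW φ₁ hφ₁ m hm hmA ζ hζ u hu0 hu1 hu2 horduP x⁻¹
    (Or.inr rfl)
  -- `Ψ` preserves the two valuations
  have hσV : ∀ (V : ValuationSubring (ModelField K₁ (M * q))),
      (∀ z : ModelField K₁ (M * q), z ≠ 0 →
        modelSigma K₁ (M * q) φ₁ z / z ∈ V ∧ z / modelSigma K₁ (M * q) φ₁ z ∈ V) →
      ∀ z : ModelField K₁ (M * q), z ∈ V ↔ modelSigma K₁ (M * q) φ₁ z ∈ V := by
    intro V hV z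
    rcases eq_or_ne z 0 with rfl | hz
    · simp [V.zero_mem]
    · have hσz : modelSigma K₁ (M * q) φ₁ z ≠ 0 :=
        (map_ne_zero_iff _ (modelSigma K₁ (M * q) φ₁).injective).mpr hz
      constructor
      · intro hzV
        have e : modelSigma K₁ (M * q) φ₁ z = modelSigma K₁ (M * q) φ₁ z / z * z := by
          field_simp
        rw [e]
        exact V.mul_mem _ _ (hV z hz).1 hzV
      · intro hzV
        have e : z = z / modelSigma K₁ (M * q) φ₁ z * modelSigma K₁ (M * q) φ₁ z := by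
          field_simp
        rw [e]
        exact V.mul_mem _ _ (hV z hz).2 hzV
  have hΨV1 : ∀ z : ModelField K₁ (M * q), z ∈ ktV K₁ A₀ (M * q) ↔ Ψ z ∈ ktV K₁ A₀ (M * q) :=
    Fermat.Agent.H65.SS.ktf_psi_mem_iff (M * q) φ₁ _ (hσV _ hinv1)
  have hΨV2 : ∀ z : ModelField K₁ (M * q),
      z ∈ ktV0 K₁ A₀ M q W ↔ Ψ z ∈ ktV0 K₁ A₀ M q W :=
    Fermat.Agent.H65.SS.ktf_psi_mem_iff (M * q) φ₁ _ (hσV _ hinv2)
  -- the algebra: `Ψ u / u ^ Q = Θ f / (ktQuot Ψ Q Γ) ^ m`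
  have hkey : Ψ u / u ^ (q ^ 2)
      = ktTheta (⇑Ψ) (q ^ 2) f / (ktQuot (⇑Ψ) (q ^ 2) Γ) ^ m := by
    have e1 : Ψ u / u ^ (q ^ 2) = ktQuot (⇑(Ψ : ModelField K₁ (M * q) →* ModelField K₁ (M * q)))
        (q ^ 2) (G₁ / Γ ^ m) := rfl
    rw [e1, ktQuot_div _ _ _ hΓm0, ktQuot_pow]
    rfl
  have hΓq0 : ktQuot (⇑Ψ) (q ^ 2) Γ ≠ 0 := kta_ktQuot_ne_zero (M * q) _ (q ^ 2) hΓ0
  -- the root in `Ω`
  have hΘ0 : ktTheta (⇑Ψ) (q ^ 2) f ≠ 0 := kta_ktQuot_ne_zero (M * q) _ (q ^ 2) hG₁0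
  have hroot : ∃ ω : LaurentSeries K₁, ω ^ m
      = algebraMap (ModelField K₁ (M * q)) (LaurentSeries K₁) (Ψ u / u ^ (q ^ 2)) := by
    have hΘL : ((ktTheta (⇑Ψ) (q ^ 2) f : ModelField K₁ (M * q)) : LaurentSeries K₁) ≠ 0 :=
      fun h0 => hΘ0 (Subtype.ext h0)
    have hdvd : (m : ℤ) ∣
        ((ktTheta (⇑Ψ) (q ^ 2) f : ModelField K₁ (M * q)) : LaurentSeries K₁).order := by
      rw [kta_order_ktTheta (M * q) (φ₁.trans φ₁) (q ^ 2) hf]
      exact dvd_zero _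
    obtain ⟨ω₁, hω₁⟩ := Fermat.Agent.H33.KLM.modelRoot K₁ m hm _ hΘL hdvd hκ
    refine ⟨ω₁ / ((ktQuot (⇑Ψ) (q ^ 2) Γ : ModelField K₁ (M * q)) : LaurentSeries K₁), ?_⟩
    rw [div_pow, hω₁, hkey]
    rfl
  -- the abstract assembly
  obtain ⟨w₀, hw₀⟩ := Fermat.Agent.H42.SS.ktAbs A₀ (ModelField K₁ (M * q)) (LaurentSeries K₁)
    hinjE q hq hqirr x htr hfd hconst m hm hmA ζ hζ (ktV K₁ A₀ (M * q)) (ktV0 K₁ A₀ M q W) hne
    hC hv1 hv2 happ Ψ (q ^ 2) (pow_pos hq.pos 2) hΨA hΨAs hΨx hΨV1 hΨV2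
    (fun c hc => hΨμ m hmA c hc) u hu1 hu2 (hlocx) (hlocxi) hroot
  refine ⟨w₀ * ktQuot (⇑Ψ) (q ^ 2) Γ, ?_⟩
  rw [mul_pow, hw₀, hkey, div_mul_cancel₀ _ (pow_ne_zero m hΓq0)]

end Fermat.Agent.H55.SS
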