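import Fermat.Agent.H55.SS.KTAsmLemmas
import Fermat.Agent.H17.SS.KtLocData
import Fermat.Agent.H7.SS2.RegLFinal
import Fermat.Agent.H34.SS.ModelVal2
import Fermat.Agent.H60.SS2.RegFact
import Fermat.Agent.H47.SS2.Lpz
import Fermat.Agent.H27.SS.LpzTwoKT
import Fermat.Agent.H58.KL.ModelTr
import Fermat.Agent.H57.SS.ModelFinite

/-!
# P-SS / S35, block (KT), row KT-C4 (concrete) : `ModelLocDataStatement` from REGL (helper55)

`modelLocData_of_regL` : the local data `KtLoc` at every closed point of the special fibre of the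
model of level `M q` (both charts), from

* helper7's regularity statement `Fermat.Agent.H7.SS2.RegLRStatement M q h₀ 1` (row REGL),
* the `Ψ`-stability of the nodes (clause FR-3 of `ModelFrobStatement M q`, row KT-C3),

with helper17's `ktLoc_of_regLAt`, helper60's `regFact`, helper47's `lpzOne` and helper27's
`lpzTwoKT` plugged in.
-/

set_option autoImplicit false
set_option linter.unusedSectionVars false
set_option linter.style.haveILetI false

noncomputable section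

namespace Fermat.Agent.H55.SS

open Polynomial AlgebraicCurve ModularCurve
open Fermat.Agent.H22.KL
open Fermat.Agent.H11.SS2
open Fermat.Agent.H82.SS

/-- helper7's regularity trichotomy gives helper17's. -/
theorem kta_regLAt_of {A : Type} [CommRing A] {E : Type} [Field E] [Algebra A E] {ϖ : A}
    {y : E} {𝔪 : Ideal (chartClosure A E y)} {V₁ V₂ : ValuationSubring E} {X Y : E}
    (h : Fermat.Agent.H7.SS2.RegLAt A E ϖ y 𝔪 V₁ V₂ X Y) :
    Fermat.Agent.H17.SS.RegLAt A E ϖ y V₁ V₂ 𝔪 := by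
  rcases h with ⟨h2, U, hU⟩ | ⟨h1, U, hU⟩ | ⟨e, -, h1, h2, -⟩
  · exact Or.inl ⟨⟨_, U, hU⟩, h2⟩
  · exact Or.inr (Or.inl ⟨⟨_, U, hU⟩, h1⟩)
  · exact Or.inr (Or.inr ⟨_, _, h1, h2⟩)

/-- **KT-C4 (LOCDATA), concrete form**, from REGL and FR-3. -/
theorem modelLocData_of_regL (M q : ℕ) [NeZero M] [NeZero q] (hq : q.Prime) (hqM : ¬ q ∣ M)
    (h₀ : LaurentSeries ℚ) (hh₀ : h₀ ∈ modularFunctionFieldFull M)
    (hREGL : Fermat.Agent.H7.SS2.RegLRStatement M q h₀ 1)
    (hFrob : ModelFrobStatement M q) : ModelLocDataStatement M q := by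
  intro K₁ _ _ _ A₀ _ _ _ _ _ _ _ hqirr x hx W hW φ₁ hφ₁ n hn hnA ζ hζ u hu0 hu1 hu2 hordP y hy
    𝔪 h𝔪 hq𝔪
  classical
  haveI : CharZero K₁ := charZero_of_injective_algebraMap (algebraMap ℚ K₁).injective
  haveI : CharZero (ModelField K₁ (M * q)) :=
    charZero_of_injective_algebraMap (algebraMap K₁ (ModelField K₁ (M * q))).injective
  have hinjK : Function.Injective (algebraMap A₀ K₁) := IsFractionRing.injective A₀ K₁
  have hinjE : Function.Injective (algebraMap A₀ (ModelField K₁ (M * q))) := by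
    rw [IsScalarTower.algebraMap_eq A₀ K₁ (ModelField K₁ (M * q))]
    exact (algebraMap K₁ (ModelField K₁ (M * q))).injective.comp hinjK
  have hqA : ¬ IsUnit ((q : ℕ) : A₀) := hqirr.not_isUnit
  have htr : Transcendental A₀ x :=
    Fermat.Agent.H58.modelTranscendental_jq (M * q) K₁ A₀ x hx
  have hfd := Fermat.Agent.H57.SS.modelFinite (M * q) K₁ A₀ x hx
  -- the chart `y`
  have hytr : Transcendental A₀ y := by
    rcases hy with rfl | rfl
    · exact htr
    · exact fun h => htr (IsAlgebraic.inv_iff.mp h)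
  have hyfd : ∃ d : ℕ, Nonempty (Module.Basis (Fin d)
      (chartField A₀ (ModelField K₁ (M * q)) y) (ModelField K₁ (M * q))) := by
    rcases hy with rfl | rfl
    · exact hfd
    · rw [Fermat.Agent.H89.klg_chartField_inv]
      exact hfd
  have hyC : gaussClosure A₀ (ModelField K₁ (M * q)) ((q : ℕ) : A₀) y
      = gaussClosure A₀ (ModelField K₁ (M * q)) ((q : ℕ) : A₀) x := by
    rcases hy with rfl | rfl
    · rfl
    · exact (Fermat.Agent.H89.gaussClosureStatement A₀ (ModelField K₁ (M * q)) hinjE _ hqirr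
        x htr).2.2
  -- the two vertical valuations
  have e1 := Fermat.Agent.H34.SS.ktV_eq_vInf K₁ A₀ (M * q)
  have e2 := Fermat.Agent.H34.SS.ktV0_eq_vZero K₁ A₀ M q W
  have hne : ktV K₁ A₀ (M * q) ≠ ktV0 K₁ A₀ M q W := by
    rw [e1, e2]
    exact Fermat.Agent.H34.SS.vInf_ne_vZero M q K₁ A₀ hq hqirr W hW
  have hvert : ∀ V' : ValuationSubring (ModelField K₁ (M * q)),
      IsVertical A₀ (ModelField K₁ (M * q)) ((q : ℕ) : A₀) y V' →
        V' = ktV K₁ A₀ (M * q) ∨ V' = ktV0 K₁ A₀ M q W := by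
    intro V' hV'
    rw [e1, e2]
    refine Fermat.Agent.H7.SS2.vertical_eq_or M q K₁ A₀ hqA _ hqirr x hx W hW hq hqM V' ?_
    obtain ⟨h1, h2, h3, h4⟩ := hV'
    refine ⟨h1, h2, ?_, h4⟩
    rw [← hyC]
    exact h3
  -- REGL
  let H' : ModelField K₁ M := ⟨coeffEmb K₁ h₀, coeffEmb_mem_laurentBaseChange K₁ hh₀⟩
  have hreg := hREGL K₁ A₀ hqirr ⟨1, IsPrimitiveRoot.one⟩ x hx W hW (heckeAlphaBar K₁ M q H')
    (heckeBetaBar K₁ M q H') (coe_heckeAlphaBar _ _ H') (coe_heckeBetaBar _ _ H') y hy 𝔪 h𝔪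
    hq𝔪
  rw [← e1, ← e2] at hreg
  -- FR-3
  obtain ⟨-, -, -, -, hFR⟩ := hFrob K₁ A₀ hqirr x hx W hW φ₁ hφ₁
  -- the orders
  have hord : ∀ V' : ValuationSubring (ModelField K₁ (M * q)),
      Fermat.Agent.H45.CentredAt A₀ (ModelField K₁ (M * q)) y 𝔪 V' →
        OrdDvd (ModelField K₁ (M * q)) V' n u := fun V' hV' =>
    kta_ordDvd_all_of_places (K₁ := K₁) n hu0 hordP V' hV'.1.1
  exact Fermat.Agent.H17.SS.ktLoc_of_regLAt Fermat.Agent.H60.SS2.regFact
    Fermat.Agent.H47.SS2.lpzOne Fermat.Agent.H27.SS.lpzTwoKT hinjE q hq hqirr y hytr hyfd n hn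
    hnA ζ hζ _ _ hne hvert (modelSigma K₁ (M * q) (φ₁.trans φ₁)) 𝔪 h𝔪 hq𝔪 (kta_regLAt_of hreg)
    (hFR y hy 𝔪 h𝔪 hq𝔪) u hu0 hu1 hu2 hord

end Fermat.Agent.H55.SS
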