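import Fermat.Agent.H55.SS.KTAsm
import Fermat.Agent.H55.SS.KTLocAdapter
import Fermat.Agent.H58.KT.DescPackage
import Fermat.Agent.H65.SS.KtFrobModel

/-!
# P-SS / S35, block (KT) : the assembly over number fields containing `μ_R` (helper55)

The level-`M` regularity providers need `μ_R ⊆ K₁` (`R` prime to `q`); helper58's descent
`Fermat.Agent.H58.KT.toricFrobFF_of_model_roots` delivers such fields.  This module redoes the
assembly pointwise in `(K₁, A₀)`: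

* `KtNodeStableAt`, `KtLocDataAt`, `KtRegLAt` : the pointwise forms of FR-3, of the local data and
  of REGL;
* `modelToric_core` : the model-level assembly for ONE pair `(K₁, A₀)`;
* `ktLocDataAt_of_regL` : the local data for one pair `(K₁, A₀)` from REGL and FR-3;
* `ModelNodeStableRStatement M q R` : FR-3 over the fields containing `μ_R`;
* `modelToricRoots_of_inputs`, `toricFrobFF_of_inputs_roots` : (KT-FF) from
  `ModelNormRed2Statement M q`, `ModelNodeStableRStatement M q R` and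
  `Fermat.Agent.H7.SS2.RegLRStatement M q h₀ R`.
-/

set_option autoImplicit false
set_option linter.unusedSectionVars false
set_option linter.style.haveILetI false

noncomputable section

namespace Fermat.Agent.H55.SS

open Polynomial AlgebraicCurve ModularCurve
open Fermat.Agent.H22.KL
open Fermat.Agent.H11.SS2
open Fermat.Agent.H82.SS
open Fermat.Agent.H16

section Pointwise

variable (M q : ℕ) [NeZero M] [NeZero q]
  (K₁ : Type) [Field K₁] [Algebra ℚ K₁] [FiniteDimensional ℚ K₁]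
  (A₀ : Type) [CommRing A₀] [IsDomain A₀] [IsDiscreteValuationRing A₀]
  [Algebra A₀ K₁] [IsFractionRing A₀ K₁]
  [Algebra A₀ (ModelField K₁ (M * q))] [IsScalarTower A₀ K₁ (ModelField K₁ (M * q))]

/-- FR-3 for one pair `(K₁, A₀)`: the closed points lying on both components are `Ψ`-stable. -/
def KtNodeStableAt : Prop :=
  ∀ (x : ModelField K₁ (M * q)), (x : LaurentSeries K₁) = coeffEmb K₁ jq →
    ∀ (W : ModelField K₁ (M * q) ≃ₐ[K₁] ModelField K₁ (M * q)), IsAtkinLehnerModel K₁ M q W →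
    ∀ (φ₁ : K₁ ≃ₐ[ℚ] K₁), IsModelFrobenius K₁ A₀ q φ₁ →
      ∀ y : ModelField K₁ (M * q), y = x ∨ y = x⁻¹ →
        ∀ 𝔪 : Ideal (chartClosure A₀ (ModelField K₁ (M * q)) y), 𝔪.IsMaximal →
          algebraMap A₀ (chartClosure A₀ (ModelField K₁ (M * q)) y) ((q : ℕ) : A₀) ∈ 𝔪 →
          Through A₀ (ModelField K₁ (M * q)) y 𝔪 (ktV K₁ A₀ (M * q)) →
          Through A₀ (ModelField K₁ (M * q)) y 𝔪 (ktV0 K₁ A₀ M q W) →
          ∀ s : chartClosure A₀ (ModelField K₁ (M * q)) y, s ∈ 𝔪 →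
            ∀ h : modelSigma K₁ (M * q) (φ₁.trans φ₁) (s : ModelField K₁ (M * q)) ∈
                chartClosure A₀ (ModelField K₁ (M * q)) y,
              (⟨modelSigma K₁ (M * q) (φ₁.trans φ₁) (s : ModelField K₁ (M * q)), h⟩ :
                chartClosure A₀ (ModelField K₁ (M * q)) y) ∈ 𝔪

/-- The local data for one pair `(K₁, A₀)`. -/
def KtLocDataAt : Prop :=
  ∀ (x : ModelField K₁ (M * q)), (x : LaurentSeries K₁) = coeffEmb K₁ jq →
    ∀ (W : ModelField K₁ (M * q) ≃ₐ[K₁] ModelField K₁ (M * q)), IsAtkinLehnerModel K₁ M q W →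
    ∀ (φ₁ : K₁ ≃ₐ[ℚ] K₁), IsModelFrobenius K₁ A₀ q φ₁ →
    ∀ (n : ℕ), 0 < n → IsUnit ((n : ℕ) : A₀) → ∀ ζ : A₀, IsPrimitiveRoot ζ n →
    ∀ u : ModelField K₁ (M * q), u ≠ 0 →
      u - 1 ∈ (ktV K₁ A₀ (M * q)).nonunits → u - 1 ∈ (ktV0 K₁ A₀ M q W).nonunits →
      (∀ P : Place K₁ (ModelField K₁ (M * q)), (n : ℤ) ∣ P.ord u) →
      ∀ y : ModelField K₁ (M * q), y = x ∨ y = x⁻¹ →
        ∀ 𝔪 : Ideal (chartClosure A₀ (ModelField K₁ (M * q)) y), 𝔪.IsMaximal →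
          algebraMap A₀ (chartClosure A₀ (ModelField K₁ (M * q)) y) ((q : ℕ) : A₀) ∈ 𝔪 →
          KtLoc A₀ (ModelField K₁ (M * q)) n y (modelSigma K₁ (M * q) (φ₁.trans φ₁))
            (ktV K₁ A₀ (M * q)) (ktV0 K₁ A₀ M q W) u 𝔪

/-- REGL for one pair `(K₁, A₀)` (helper7's trichotomy at every closed point, both charts). -/
def KtRegLAt (h₀ : LaurentSeries ℚ) : Prop :=
  ∀ (x : ModelField K₁ (M * q)), (x : LaurentSeries K₁) = coeffEmb K₁ jq →
    ∀ (W : ModelField K₁ (M * q) ≃ₐ[K₁] ModelField K₁ (M * q)), IsAtkinLehnerModel K₁ M q W →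
    ∀ (H Hq : ModelField K₁ (M * q)), (H : LaurentSeries K₁) = coeffEmb K₁ h₀ →
      (Hq : LaurentSeries K₁) = qExpand K₁ q (coeffEmb K₁ h₀) →
    ∀ (y : ModelField K₁ (M * q)), y = x ∨ y = x⁻¹ →
    ∀ 𝔪 : Ideal (chartClosure A₀ (ModelField K₁ (M * q)) y), 𝔪.IsMaximal →
      algebraMap A₀ (chartClosure A₀ (ModelField K₁ (M * q)) y) ((q : ℕ) : A₀) ∈ 𝔪 →
      Fermat.Agent.H7.SS2.RegLAt A₀ (ModelField K₁ (M * q)) ((q : ℕ) : A₀) y 𝔪
        (Fermat.Agent.H7.SS2.vInf K₁ A₀ (M * q)) (Fermat.Agent.H7.SS2.vZero K₁ A₀ (M * q) W)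
        (Hq - H ^ q) (H - Hq ^ q)

variable {M q K₁ A₀}

/-- **The local data for one pair `(K₁, A₀)`** from REGL and FR-3. -/
theorem ktLocDataAt_of_regL (hq : q.Prime) (hqM : ¬ q ∣ M)
    (hqirr : Irreducible ((q : ℕ) : A₀))
    (h₀ : LaurentSeries ℚ) (hh₀ : h₀ ∈ modularFunctionFieldFull M)
    (hREGL : KtRegLAt M q K₁ A₀ h₀) (hFR : KtNodeStableAt M q K₁ A₀) :
    KtLocDataAt M q K₁ A₀ := by
  intro x hx W hW φ₁ hφ₁ n hn hnA ζ hζ u hu0 hu1 hu2 hordP y hy 𝔪 h𝔪 hq𝔪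
  classical
  haveI : CharZero K₁ := charZero_of_injective_algebraMap (algebraMap ℚ K₁).injective
  haveI : CharZero (ModelField K₁ (M * q)) :=
    charZero_of_injective_algebraMap (algebraMap K₁ (ModelField K₁ (M * q))).injective
  have hinjK : Function.Injective (algebraMap A₀ K₁) := IsFractionRing.injective A₀ K₁
  have hinjE : Function.Injective (algebraMap A₀ (ModelField K₁ (M * q))) := by
    rw [IsScalarTower.algebraMap_eq A₀ K₁ (ModelField K₁ (M * q))]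
    exact (algebraMap K₁ (ModelField K₁ (M * q))).injective.comp hinjK
  have hqA : ¬ IsUnit ((q : ℕ) : A₀) := hqirr.not_isUnit
  have htr : Transcendental A₀ x :=
    Fermat.Agent.H58.modelTranscendental_jq (M * q) K₁ A₀ x hx
  have hfd := Fermat.Agent.H57.SS.modelFinite (M * q) K₁ A₀ x hx
  have hytr : Transcendental A₀ y := by
    rcases hy with rfl | rfl
    · exact htr
    · exact fun h => htr (IsAlgebraic.inv_iff.mp h)
  have hyfd : ∃ d : ℕ, Nonempty (Module.Basis (Fin d)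
      (chartField A₀ (ModelField K₁ (M * q)) y) (ModelField K₁ (M * q))) := by
    rcases hy with rfl | rfl
    · exact hfd
    · rw [Fermat.Agent.H89.klg_chartField_inv]
      exact hfd
  have hyC : gaussClosure A₀ (ModelField K₁ (M * q)) ((q : ℕ) : A₀) y
      = gaussClosure A₀ (ModelField K₁ (M * q)) ((q : ℕ) : A₀) x := by
    rcases hy with rfl | rfl
    · rfl
    · exact (Fermat.Agent.H89.gaussClosureStatement A₀ (ModelField K₁ (M * q)) hinjE _ hqirr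
        x htr).2.2
  have e1 := Fermat.Agent.H34.SS.ktV_eq_vInf K₁ A₀ (M * q)
  have e2 := Fermat.Agent.H34.SS.ktV0_eq_vZero K₁ A₀ M q W
  have hne : ktV K₁ A₀ (M * q) ≠ ktV0 K₁ A₀ M q W := by
    rw [e1, e2]
    exact Fermat.Agent.H34.SS.vInf_ne_vZero M q K₁ A₀ hq hqirr W hW
  have hvert : ∀ V' : ValuationSubring (ModelField K₁ (M * q)),
      IsVertical A₀ (ModelField K₁ (M * q)) ((q : ℕ) : A₀) y V' →
        V' = ktV K₁ A₀ (M * q) ∨ V' = ktV0 K₁ A₀ M q W := by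
    intro V' hV'
    rw [e1, e2]
    refine Fermat.Agent.H7.SS2.vertical_eq_or M q K₁ A₀ hqA _ hqirr x hx W hW hq hqM V' ?_
    obtain ⟨h1, h2, h3, h4⟩ := hV'
    refine ⟨h1, h2, ?_, h4⟩
    rw [← hyC]
    exact h3
  let H' : ModelField K₁ M := ⟨coeffEmb K₁ h₀, coeffEmb_mem_laurentBaseChange K₁ hh₀⟩
  have hreg := hREGL x hx W hW (heckeAlphaBar K₁ M q H')
    (heckeBetaBar K₁ M q H') (coe_heckeAlphaBar _ _ H') (coe_heckeBetaBar _ _ H') y hy 𝔪 h𝔪
    hq𝔪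
  rw [← e1, ← e2] at hreg
  have hord : ∀ V' : ValuationSubring (ModelField K₁ (M * q)),
      Fermat.Agent.H45.CentredAt A₀ (ModelField K₁ (M * q)) y 𝔪 V' →
        OrdDvd (ModelField K₁ (M * q)) V' n u := fun V' hV' =>
    kta_ordDvd_all_of_places (K₁ := K₁) n hu0 hordP V' hV'.1.1
  exact Fermat.Agent.H17.SS.ktLoc_of_regLAt Fermat.Agent.H60.SS2.regFact
    Fermat.Agent.H47.SS2.lpzOne Fermat.Agent.H27.SS.lpzTwoKT hinjE q hq hqirr y hytr hyfd n hn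
    hnA ζ hζ _ _ hne hvert (modelSigma K₁ (M * q) (φ₁.trans φ₁)) 𝔪 h𝔪 hq𝔪 (kta_regLAt_of hreg)
    (hFR x hx W hW φ₁ hφ₁ y hy 𝔪 h𝔪 hq𝔪) u hu0 hu1 hu2 hord

/-- **The model-level assembly for one pair `(K₁, A₀)`.** -/
theorem modelToric_core (hq : q.Prime) (hqM : Nat.Coprime M q)
    (hVal : ModelVal2Statement M q) (hNorm : ModelNormRed2Statement M q)
    (hqirr : Irreducible ((q : ℕ) : A₀)) (hLoc : KtLocDataAt M q K₁ A₀)
    (φ₁ : K₁ ≃ₐ[ℚ] K₁) (hφ₁ : IsModelFrobenius K₁ A₀ q φ₁)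
    (m : ℕ) (hm : 0 < m) (hmA : IsUnit ((m : ℕ) : A₀)) (hζm : ∃ ζ : K₁, IsPrimitiveRoot ζ m)
    (f : ModelField K₁ (M * q)) (hf : f ≠ 0)
    (hord : ∀ P : Place K₁ (ModelField K₁ (M * q)), (m : ℤ) ∣ P.ord f)
    (hNa : ∃ (γ : K₁) (h : ModelField K₁ M), γ ≠ 0 ∧
      algebraMap K₁ _ γ * h ^ m = ss2NormAlong (heckeAlphaBar K₁ M q) f)
    (hNb : ∃ (γ : K₁) (h : ModelField K₁ M), γ ≠ 0 ∧
      algebraMap K₁ _ γ * h ^ m = ss2NormAlong (heckeBetaBar K₁ M q) f)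
    (hκ : ∃ κ : K₁, κ ^ m =
      ((ktTheta (modelSigma K₁ (M * q) (φ₁.trans φ₁)) (q ^ 2) f :
        ModelField K₁ (M * q)) : LaurentSeries K₁).leadingCoeff) :
    ∃ w : ModelField K₁ (M * q),
      w ^ m = ktTheta (modelSigma K₁ (M * q) (φ₁.trans φ₁)) (q ^ 2) f := by
  classical
  -- the coordinate
  have hjq : jq ∈ modularFunctionFieldFull (M * q) := by
    have h := jqd_mem_full (M * q) (one_dvd (M * q))
    rwa [qExpand_one_apply] at h
  let x : ModelField K₁ (M * q) := ⟨coeffEmb K₁ jq, coeffEmb_mem_laurentBaseChange K₁ hjq⟩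
  have hx : (x : LaurentSeries K₁) = coeffEmb K₁ jq := rfl
  have hinjK : Function.Injective (algebraMap A₀ K₁) := IsFractionRing.injective A₀ K₁
  -- the instances on `Ω = K₁((q))`
  have hmapΩ : ∀ c : A₀, algebraMap A₀ (LaurentSeries K₁) c
      = algebraMap K₁ (LaurentSeries K₁) (algebraMap A₀ K₁ c) := by
    intro c
    simp [HahnSeries.algebraMap_apply', PowerSeries.algebraMap_apply]
  haveI towK := IsScalarTower.of_algebraMap_eq (R := A₀) (S := K₁) (A := LaurentSeries K₁) hmapΩ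
  haveI towΩ := IsScalarTower.of_algebraMap_eq (R := A₀) (S := ModelField K₁ (M * q))
    (A := LaurentSeries K₁) (fun c => by
      rw [hmapΩ, IsScalarTower.algebraMap_apply A₀ K₁ (ModelField K₁ (M * q))]
      rfl)
  haveI : CharZero K₁ := charZero_of_injective_algebraMap (algebraMap ℚ K₁).injective
  haveI : CharZero (ModelField K₁ (M * q)) :=
    charZero_of_injective_algebraMap (algebraMap K₁ (ModelField K₁ (M * q))).injective
  have hinjE : Function.Injective (algebraMap A₀ (ModelField K₁ (M * q))) := by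
    rw [IsScalarTower.algebraMap_eq A₀ K₁ (ModelField K₁ (M * q))]
    exact (algebraMap K₁ (ModelField K₁ (M * q))).injective.comp hinjK
  have htr : Transcendental A₀ x :=
    Fermat.Agent.H58.modelTranscendental_jq (M * q) K₁ A₀ x hx
  have hfd := Fermat.Agent.H57.SS.modelFinite (M * q) K₁ A₀ x hx
  have hconst : ∀ z : LaurentSeries K₁, IsIntegral A₀ z →
      z ∈ (algebraMap A₀ (LaurentSeries K₁)).range := by
    intro z hz
    have hz1 : IsAlgebraic K₁ z := (hz.tower_top (A := K₁)).isAlgebraic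
    obtain ⟨c, rfl⟩ := Fermat.Agent.H93.KL.modelConst K₁ z hz1
    have hc : IsIntegral A₀ c :=
      (isIntegral_algebraMap_iff (algebraMap K₁ (LaurentSeries K₁)).injective).mp hz
    obtain ⟨d, rfl⟩ := IsIntegrallyClosed.isIntegral_iff.mp hc
    exact ⟨d, hmapΩ d⟩
  -- the primitive root of unity in `A₀`
  obtain ⟨ζ, hζ⟩ : ∃ ζ : A₀, IsPrimitiveRoot ζ m := by
    obtain ⟨ζ, hζ⟩ := hζm
    have hint : IsIntegral A₀ ζ :=
      ⟨X ^ m - 1, monic_X_pow_sub_C 1 hm.ne', by simp [hζ.pow_eq_one]⟩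
    obtain ⟨z, hz⟩ := IsIntegrallyClosed.isIntegral_iff.mp hint
    exact ⟨z, IsPrimitiveRoot.of_map_of_injective (f := algebraMap A₀ K₁) (hz ▸ hζ) hinjK⟩
  -- the Atkin-Lehner automorphism and the tables
  obtain ⟨W, hW⟩ := Fermat.Agent.H62.SS.modelAtkinLehnerExists M q hqM K₁
  have hT := ktTable_of_model M q hVal hNorm K₁ A₀ hqirr x hx W hW φ₁ hφ₁
  obtain ⟨hC, hne, hv1, hv2, -, -, happ, hinv1, hinv2, -, -, -, -, -⟩ :=
    hVal K₁ A₀ hqirr x hx W hW φ₁ hφ₁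
  -- the Frobenius lift (clauses 1-4 are unconditional)
  have hΨA := Fermat.Agent.H65.SS.ktf_psi_preserves (M * q) hφ₁
  have hΨAs := Fermat.Agent.H65.SS.ktf_psi_symm_preserves (M * q) hφ₁
  have hΨx := Fermat.Agent.H65.SS.ktf_psi_fix (M * q) φ₁ jq x hx
  -- notation
  set Ψ : ModelField K₁ (M * q) ≃+* ModelField K₁ (M * q) :=
    modelSigma K₁ (M * q) (φ₁.trans φ₁) with hΨdef
  have hΨφ : ∀ z : ModelField K₁ (M * q),
      Ψ z = modelSigma K₁ (M * q) φ₁ (modelSigma K₁ (M * q) φ₁ z) :=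
    fun z => Fermat.Agent.H65.SS.ktf_psi_apply (M * q) φ₁ z
  -- the norms
  obtain ⟨γ, h, hγ0, hNa'⟩ := hNa
  obtain ⟨γ', h', hγ'0, hNb'⟩ := hNb
  -- step S2 : `Γ`
  obtain ⟨Γ, hΓ0, -, -, -, -, hu1, hu2⟩ := hT.exists_gamma_unit (⇑Ψ) hΨφ hm hf
    (γ := algebraMap K₁ _ γ) (γ' := algebraMap K₁ _ γ') (h := h) (h' := h')
    ⟨γ, rfl⟩ ⟨γ', rfl⟩ hNa'.symm hNb'.symm
  set G₁ : ModelField K₁ (M * q) := ktQuot (⇑Ψ) (q ^ 2) (ktQuot (⇑Ψ) 1 (ktQuot (⇑Ψ) 1 f))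
    with hG₁
  set u : ModelField K₁ (M * q) := G₁ / Γ ^ m with hu
  have hf1 : ktQuot (⇑Ψ) 1 f ≠ 0 := kta_ktQuot_ne_zero (M * q) _ 1 hf
  have hf2 : ktQuot (⇑Ψ) 1 (ktQuot (⇑Ψ) 1 f) ≠ 0 := kta_ktQuot_ne_zero (M * q) _ 1 hf1
  have hG₁0 : G₁ ≠ 0 := kta_ktQuot_ne_zero (M * q) _ (q ^ 2) hf2
  have hΓm0 : Γ ^ m ≠ 0 := pow_ne_zero m hΓ0
  have hu0 : u ≠ 0 := div_ne_zero hG₁0 hΓm0
  -- divisibility of the divisor of `u`
  have hordf : ∀ V : ValuationSubring (ModelField K₁ (M * q)),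
      IsPlace A₀ (ModelField K₁ (M * q)) V → OrdDvd (ModelField K₁ (M * q)) V m f :=
    kta_ordDvd_all_of_places (K₁ := K₁) m hf hord
  have hordu : ∀ V : ValuationSubring (ModelField K₁ (M * q)),
      IsPlace A₀ (ModelField K₁ (M * q)) V → OrdDvd (ModelField K₁ (M * q)) V m u := by
    intro V hV
    refine kta_ordDvd_div V m ?_ (kta_ordDvd_pow_self V m hΓ0)
    exact kta_ordDvd_ktQuot A₀ hinjE m Ψ hΨA (q ^ 2)
      (kta_ordDvd_ktQuot A₀ hinjE m Ψ hΨA 1 (kta_ordDvd_ktQuot A₀ hinjE m Ψ hΨA 1 hordf)) V hV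
  have horduP : ∀ P : Place K₁ (ModelField K₁ (M * q)), (m : ℤ) ∣ P.ord u := fun P =>
    kta_dvd_ord_of_ordDvd P m hu0 (hordu _ (kta_isPlace_of_place (A₀ := A₀) P))
  -- the local data
  have hlocx := hLoc x hx W hW φ₁ hφ₁ m hm hmA ζ hζ u hu0 hu1 hu2 horduP x (Or.inl rfl)
  have hlocxi := hLoc x hx W hW φ₁ hφ₁ m hm hmA ζ hζ u hu0 hu1 hu2 horduP x⁻¹ (Or.inr rfl)
  -- `Ψ` preserves the two valuations
  have hσV : ∀ (V : ValuationSubring (ModelField K₁ (M * q))),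
      (∀ z : ModelField K₁ (M * q), z ≠ 0 →
        modelSigma K₁ (M * q) φ₁ z / z ∈ V ∧ z / modelSigma K₁ (M * q) φ₁ z ∈ V) →
      ∀ z : ModelField K₁ (M * q), z ∈ V ↔ modelSigma K₁ (M * q) φ₁ z ∈ V := by
    intro V hV z
    rcases eq_or_ne z 0 with rfl | hz
    · simp [V.zero_mem]
    · have hσz : modelSigma K₁ (M * q) φ₁ z ≠ 0 :=
        (map_ne_zero_iff _ (modelSigma K₁ (M * q) φ₁).injective).mpr hz
      constructor
      · intro hzV
        have e : modelSigma K₁ (M * q) φ₁ z = modelSigma K₁ (M * q) φ₁ z / z * z := by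
          field_simp
        rw [e]
        exact V.mul_mem _ _ (hV z hz).1 hzV
      · intro hzV
        have e : z = z / modelSigma K₁ (M * q) φ₁ z * modelSigma K₁ (M * q) φ₁ z := by
          field_simp
        rw [e]
        exact V.mul_mem _ _ (hV z hz).2 hzV
  have hΨV1 : ∀ z : ModelField K₁ (M * q), z ∈ ktV K₁ A₀ (M * q) ↔ Ψ z ∈ ktV K₁ A₀ (M * q) :=
    Fermat.Agent.H65.SS.ktf_psi_mem_iff (M * q) φ₁ _ (hσV _ hinv1)
  have hΨV2 : ∀ z : ModelField K₁ (M * q),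
      z ∈ ktV0 K₁ A₀ M q W ↔ Ψ z ∈ ktV0 K₁ A₀ M q W :=
    Fermat.Agent.H65.SS.ktf_psi_mem_iff (M * q) φ₁ _ (hσV _ hinv2)
  -- the algebra: `Ψ u / u ^ Q = Θ f / (ktQuot Ψ Q Γ) ^ m`
  have hkey : Ψ u / u ^ (q ^ 2)
      = ktTheta (⇑Ψ) (q ^ 2) f / (ktQuot (⇑Ψ) (q ^ 2) Γ) ^ m := by
    have e1 : Ψ u / u ^ (q ^ 2) = ktQuot (⇑(Ψ : ModelField K₁ (M * q) →* ModelField K₁ (M * q)))
        (q ^ 2) (G₁ / Γ ^ m) := rfl
    rw [e1, ktQuot_div _ _ _ hΓm0, ktQuot_pow]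
    rfl
  have hΓq0 : ktQuot (⇑Ψ) (q ^ 2) Γ ≠ 0 := kta_ktQuot_ne_zero (M * q) _ (q ^ 2) hΓ0
  -- the root in `Ω`
  have hΘ0 : ktTheta (⇑Ψ) (q ^ 2) f ≠ 0 := kta_ktQuot_ne_zero (M * q) _ (q ^ 2) hG₁0
  have hroot : ∃ ω : LaurentSeries K₁, ω ^ m
      = algebraMap (ModelField K₁ (M * q)) (LaurentSeries K₁) (Ψ u / u ^ (q ^ 2)) := by
    have hΘL : ((ktTheta (⇑Ψ) (q ^ 2) f : ModelField K₁ (M * q)) : LaurentSeries K₁) ≠ 0 :=
      fun h0 => hΘ0 (Subtype.ext h0)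
    have hdvd : (m : ℤ) ∣
        ((ktTheta (⇑Ψ) (q ^ 2) f : ModelField K₁ (M * q)) : LaurentSeries K₁).order := by
      rw [kta_order_ktTheta (M * q) (φ₁.trans φ₁) (q ^ 2) hf]
      exact dvd_zero _
    obtain ⟨ω₁, hω₁⟩ := Fermat.Agent.H33.KLM.modelRoot K₁ m hm _ hΘL hdvd hκ
    refine ⟨ω₁ / ((ktQuot (⇑Ψ) (q ^ 2) Γ : ModelField K₁ (M * q)) : LaurentSeries K₁), ?_⟩
    rw [div_pow, hω₁, hkey]
    rfl
  -- the abstract assembly
  obtain ⟨w₀, hw₀⟩ := Fermat.Agent.H42.SS.ktAbs A₀ (ModelField K₁ (M * q)) (LaurentSeries K₁)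
    hinjE q hq hqirr x htr hfd hconst m hm hmA ζ hζ (ktV K₁ A₀ (M * q)) (ktV0 K₁ A₀ M q W) hne
    hC hv1 hv2 happ Ψ (q ^ 2) (pow_pos hq.pos 2) hΨA hΨAs hΨx hΨV1 hΨV2
    (fun c hc => Fermat.Agent.H65.SS.ktf_psi_root (M * q) hφ₁ hmA hc) u hu1 hu2 (hlocx)
    (hlocxi) hroot
  refine ⟨w₀ * ktQuot (⇑Ψ) (q ^ 2) Γ, ?_⟩
  rw [mul_pow, hw₀, hkey, div_mul_cancel₀ _ (pow_ne_zero m hΓq0)]

end Pointwise

/-! ## The statements over the number fields containing `μ_R` -/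

/-- **FR-3 over the fields containing `μ_R`**: the closed points of the special fibre lying on
both components are `Ψ`-stable (clause 5 of `ModelFrobStatement M q`, with the extra hypothesis
`(∃ ζ : K₁, IsPrimitiveRoot ζ R)` right after `Irreducible`). -/
def ModelNodeStableRStatement (M q R : ℕ) [NeZero M] [NeZero q] : Prop :=
  ∀ (K₁ : Type) [Field K₁] [Algebra ℚ K₁] [FiniteDimensional ℚ K₁]
    (A₀ : Type) [CommRing A₀] [IsDomain A₀] [IsDiscreteValuationRing A₀]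
    [Algebra A₀ K₁] [IsFractionRing A₀ K₁]
    [Algebra A₀ (ModelField K₁ (M * q))] [IsScalarTower A₀ K₁ (ModelField K₁ (M * q))],
    Irreducible ((q : ℕ) : A₀) → (∃ ζ : K₁, IsPrimitiveRoot ζ R) →
    KtNodeStableAt M q K₁ A₀

/-- The statement without roots of unity gives the statement with roots of unity. -/
theorem modelNodeStableR_of_node (M q R : ℕ) [NeZero M] [NeZero q]
    (h : Fermat.Agent.H65.SS.ModelFrobNodeStatement M q) : ModelNodeStableRStatement M q R :=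
  fun K₁ _ _ _ A₀ _ _ _ _ _ _ _ hqirr _ x hx W hW φ₁ hφ₁ =>
    h K₁ A₀ hqirr x hx W hW φ₁ hφ₁

/-- **Model-level (KT) over the fields containing `μ_R`** from the three open inputs. -/
theorem modelToricRoots_of_inputs (M q R : ℕ) [NeZero M] [NeZero q] (hq : q.Prime)
    (hqM : ¬ q ∣ M) (h₀ : LaurentSeries ℚ) (hh₀ : h₀ ∈ modularFunctionFieldFull M)
    (hNorm : ModelNormRed2Statement M q)
    (hNode : ModelNodeStableRStatement M q R)
    (hREGL : Fermat.Agent.H7.SS2.RegLRStatement M q h₀ R) :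
    Fermat.Agent.H58.KT.ModelToricRootsStatement M q R := by
  intro K₁ _ _ _ A₀ _ _ _ _ _ hqirr φ₁ hφ₁ hR m hm hmA hζm f hf hord hNa hNb hκ
  letI algE : Algebra A₀ (ModelField K₁ (M * q)) :=
    ((algebraMap K₁ (ModelField K₁ (M * q))).comp (algebraMap A₀ K₁)).toAlgebra
  haveI towE : IsScalarTower A₀ K₁ (ModelField K₁ (M * q)) :=
    IsScalarTower.of_algebraMap_eq (fun _ => rfl)
  have hLoc : KtLocDataAt M q K₁ A₀ :=
    ktLocDataAt_of_regL hq hqM hqirr h₀ hh₀ (hREGL K₁ A₀ hqirr hR) (hNode K₁ A₀ hqirr hR)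
  exact modelToric_core hq (Nat.Coprime.symm ((Nat.Prime.coprime_iff_not_dvd hq).2 hqM))
    (Fermat.Agent.H34.SS.modelVal2 M q hq hqM) hNorm hqirr hLoc φ₁ hφ₁ m hm hmA hζm f hf hord
    hNa hNb hκ

/-- **(KT-FF)** from the three open inputs, over the fields containing `μ_R` (`R > 0` prime to
`q`). -/
theorem toricFrobFF_of_inputs_roots (M q R : ℕ) [NeZero M] [NeZero q] (hq : q.Prime)
    (hqM : ¬ q ∣ M) (hR : 0 < R) (hqR : ¬ q ∣ R)
    (h₀ : LaurentSeries ℚ) (hh₀ : h₀ ∈ modularFunctionFieldFull M)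
    (hNorm : ModelNormRed2Statement M q)
    (hNode : ModelNodeStableRStatement M q R)
    (hREGL : Fermat.Agent.H7.SS2.RegLRStatement M q h₀ R) :
    ToricFrobFFStatement M q :=
  Fermat.Agent.H58.KT.toricFrobFF_of_model_roots M q R hq hR hqR
    (modelToricRoots_of_inputs M q R hq hqM h₀ hh₀ hNorm hNode hREGL)

end Fermat.Agent.H55.SS
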