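import Fermat.Agent.H55.SS.KTAsmCore

/-!
# P-SS / S35, block (KT) : monotonicity in the roots of unity (helper55)

If the providers of FR-3 and of REGL need different roots of unity `μ_{R₁}`, `μ_{R₂}`, use any
common multiple `R` (prime to `q`): `modelNodeStableR_mono`, `regLR_mono`, and the final form
`toricFrobFF_of_inputs_two`.
-/

set_option autoImplicit false

namespace Fermat.Agent.H55.SS

open ModularCurve

theorem kta_exists_primitiveRoot_of_dvd {K : Type*} [CommRing K] [IsDomain K] {R₁ R : ℕ}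
    (hdvd : R₁ ∣ R) (hR : 0 < R) (h : ∃ ζ : K, IsPrimitiveRoot ζ R) :
    ∃ ζ : K, IsPrimitiveRoot ζ R₁ := by
  obtain ⟨ζ, hζ⟩ := h
  obtain ⟨a, ha⟩ := hdvd
  exact ⟨ζ ^ a, hζ.pow hR (by rw [ha, mul_comm])⟩

theorem modelNodeStableR_mono (M q R₁ R : ℕ) [NeZero M] [NeZero q] (hdvd : R₁ ∣ R) (hR : 0 < R)
    (h : ModelNodeStableRStatement M q R₁) : ModelNodeStableRStatement M q R :=
  fun K₁ _ _ _ A₀ _ _ _ _ _ _ _ hqirr hζ =>
    h K₁ A₀ hqirr (kta_exists_primitiveRoot_of_dvd hdvd hR hζ)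

theorem regLR_mono (M q R₁ R : ℕ) [NeZero M] [NeZero q] (h₀ : LaurentSeries ℚ) (hdvd : R₁ ∣ R)
    (hR : 0 < R) (h : Fermat.Agent.H7.SS2.RegLRStatement M q h₀ R₁) :
    Fermat.Agent.H7.SS2.RegLRStatement M q h₀ R :=
  fun K₁ _ _ _ A₀ _ _ _ _ _ _ _ hqirr hζ =>
    h K₁ A₀ hqirr (kta_exists_primitiveRoot_of_dvd hdvd hR hζ)

/-- **(KT-FF)** from the three open inputs, the providers of FR-3 and REGL using possibly
different roots of unity `μ_{R₁}`, `μ_{R₂}` (`R₁ R₂ > 0` prime to `q`). -/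
theorem toricFrobFF_of_inputs_two (M q R₁ R₂ : ℕ) [NeZero M] [NeZero q] (hq : q.Prime)
    (hqM : ¬ q ∣ M) (hR₁ : 0 < R₁) (hR₂ : 0 < R₂) (hqR₁ : ¬ q ∣ R₁) (hqR₂ : ¬ q ∣ R₂)
    (h₀ : LaurentSeries ℚ) (hh₀ : h₀ ∈ modularFunctionFieldFull M)
    (hNorm : ModelNormRed2Statement M q)
    (hNode : ModelNodeStableRStatement M q R₁)
    (hREGL : Fermat.Agent.H7.SS2.RegLRStatement M q h₀ R₂) :
    ToricFrobFFStatement M q :=
  toricFrobFF_of_inputs_roots M q (R₁ * R₂) hq hqM (Nat.mul_pos hR₁ hR₂)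
    (fun h => (hq.dvd_mul.1 h).elim hqR₁ hqR₂) h₀ hh₀ hNorm
    (modelNodeStableR_mono M q R₁ (R₁ * R₂) (dvd_mul_right _ _) (Nat.mul_pos hR₁ hR₂) hNode)
    (regLR_mono M q R₂ (R₁ * R₂) h₀ (dvd_mul_left _ _) (Nat.mul_pos hR₁ hR₂) hREGL)

end Fermat.Agent.H55.SS
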