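import Fermat.Agent.H55.SS.KTAsmLemmas
import Fermat.Agent.H65.SS.KtFrobBasic

/-!
# P-SS / S35, block (KT), row KT-C5 : the table `KtTable` of the model (helper55)

`ktTable_of_model` : helper16's abstract table `Fermat.Agent.H16.KtTable` for the model fields of
level `M` and `M q`, from `ModelVal2Statement M q` (row KT-C1) and `ModelNormRed2Statement M q`
(row KT-C2).
-/

set_option autoImplicit false
set_option linter.unusedSectionVars false
set_option linter.style.haveILetI false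

noncomputable section

namespace Fermat.Agent.H55.SS

open AlgebraicCurve ModularCurve
open Fermat.Agent.H22.KL
open Fermat.Agent.H11.SS2
open Fermat.Agent.H82.SS
open Fermat.Agent.H16

section Comm

theorem kta_coeffMap_qExpand {R S : Type*} [CommRing R] [CommRing S] (f : R →+* S) (n : ℕ)
    [NeZero n] (x : LaurentSeries R) :
    coeffMap f (qExpand R n x) = qExpand S n (coeffMap f x) := by
  ext k
  by_cases hk : (n : ℤ) ∣ k
  · obtain ⟨m, rfl⟩ := hk
    rw [coeffMap_coeff, qExpand_coeff_mul, qExpand_coeff_mul, coeffMap_coeff]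
  · rw [coeffMap_coeff, qExpand_coeff_of_not_dvd n _ hk, qExpand_coeff_of_not_dvd n _ hk,
      map_zero]

variable (K₁ : Type) [Field K₁] [Algebra ℚ K₁] (M q : ℕ) [NeZero M] [NeZero q]

/-- The coefficientwise action commutes with `α`. -/
theorem kta_sigma_alpha (σ₁ : K₁ ≃ₐ[ℚ] K₁) (y : ModelField K₁ M) :
    heckeAlphaBar K₁ M q (modelSigma K₁ M σ₁ y)
      = modelSigma K₁ (M * q) σ₁ (heckeAlphaBar K₁ M q y) := by
  apply Subtype.ext
  rw [coe_heckeAlphaBar, coe_arithmeticRingAut_apply, coe_arithmeticRingAut_apply,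
    coe_heckeAlphaBar]

/-- The coefficientwise action commutes with `β`. -/
theorem kta_sigma_beta (σ₁ : K₁ ≃ₐ[ℚ] K₁) (y : ModelField K₁ M) :
    heckeBetaBar K₁ M q (modelSigma K₁ M σ₁ y)
      = modelSigma K₁ (M * q) σ₁ (heckeBetaBar K₁ M q y) := by
  apply Subtype.ext
  rw [coe_heckeBetaBar, coe_arithmeticRingAut_apply, coe_arithmeticRingAut_apply,
    coe_heckeBetaBar, kta_coeffMap_qExpand]

end Comm

section Const

variable (K₁ : Type) [Field K₁] [Algebra ℚ K₁] (A₀ : Type) [CommRing A₀] [IsDomain A₀]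
  [ValuationRing A₀] [Algebra A₀ K₁] [IsFractionRing A₀ K₁] (N : ℕ)

/-- A constant lies in the Gauss valuation ring iff it is integral. -/
theorem kta_const_mem_iff (k : K₁) :
    algebraMap K₁ (ModelField K₁ N) k ∈ ktV K₁ A₀ N ↔ ∃ a : A₀, algebraMap A₀ K₁ a = k := by
  rw [mem_ktV_iff, ← mem_rangeVal_iff]
  exact Fermat.Agent.H66.algebraMap_mem_vGaussRing_iff (rangeVal A₀ K₁) k

/-- A non-unit of `A₀` is a non-unit of the Gauss valuation ring. -/
theorem kta_const_nonunit {d : A₀} (hd : ¬ IsUnit d) :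
    algebraMap K₁ (ModelField K₁ N) (algebraMap A₀ K₁ d) ∈ (ktV K₁ A₀ N).nonunits := by
  rw [mem_nonunits_iff_inv]
  by_cases hd0 : algebraMap K₁ (ModelField K₁ N) (algebraMap A₀ K₁ d) = 0
  · exact Or.inl hd0
  · right
    intro hinv
    rw [← map_inv₀, kta_const_mem_iff] at hinv
    obtain ⟨e, he⟩ := hinv
    apply hd
    have hinj : Function.Injective (algebraMap A₀ K₁) := IsFractionRing.injective A₀ K₁
    have hdK : algebraMap A₀ K₁ d ≠ 0 := by
      intro h0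
      apply hd0
      rw [h0, map_zero]
    refine IsUnit.of_mul_eq_one e ?_
    apply hinj
    rw [map_mul, he, map_one, mul_inv_cancel₀ hdK]

end Const

section Table

theorem kta_nonunits_add {E : Type*} [Field E] (V : ValuationSubring E) {a b : E}
    (ha : a ∈ V.nonunits) (hb : b ∈ V.nonunits) : a + b ∈ V.nonunits := by
  rw [ValuationSubring.mem_nonunits_iff] at *
  exact lt_of_le_of_lt (Valuation.map_add _ _ _) (max_lt ha hb)

theorem kta_mem_of_nonunits {E : Type*} [Field E] (V : ValuationSubring E) {a : E}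
    (ha : a ∈ V.nonunits) : a ∈ V :=
  (V.valuation_le_one_iff a).1 (le_of_lt ((ValuationSubring.mem_nonunits_iff V).1 ha))

variable (M q : ℕ) [NeZero M] [NeZero q]

/-- Two applications of a model Frobenius are the `q²`-th power modulo the maximal ideal. -/
theorem kta_frob_sq {K₁ : Type} [Field K₁] [Algebra ℚ K₁] {A₀ : Type} [CommRing A₀]
    [IsLocalRing A₀] [Algebra A₀ K₁] {q : ℕ} {φ₁ : K₁ ≃ₐ[ℚ] K₁}
    (hφ₁ : IsModelFrobenius K₁ A₀ q φ₁) (a : A₀) :
    ∃ d : A₀, ¬ IsUnit d ∧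
      algebraMap A₀ K₁ d = φ₁ (φ₁ (algebraMap A₀ K₁ a)) - algebraMap A₀ K₁ a ^ (q ^ 2) := by
  obtain ⟨b, hb, hbu⟩ := hφ₁ a
  obtain ⟨c, hc, hcu⟩ := hφ₁ b
  refine ⟨(c - b ^ q) + (b ^ q - (a ^ q) ^ q), ?_, ?_⟩
  · have h1 : c - b ^ q ∈ IsLocalRing.maximalIdeal A₀ := hcu
    have h2 : b - a ^ q ∈ IsLocalRing.maximalIdeal A₀ := hbu
    have h3 : b ^ q - (a ^ q) ^ q ∈ IsLocalRing.maximalIdeal A₀ := by
      obtain ⟨e, he⟩ := sub_dvd_pow_sub_pow b (a ^ q) q
      rw [he]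
      exact Ideal.mul_mem_right _ _ h2
    exact Ideal.add_mem _ h1 h3
  · rw [← hb, ← hc]
    simp only [map_add, map_sub, map_pow]
    ring

theorem ktTable_of_model (hVal : ModelVal2Statement M q) (hNorm : ModelNormRed2Statement M q)
    (K₁ : Type) [Field K₁] [Algebra ℚ K₁] [FiniteDimensional ℚ K₁]
    (A₀ : Type) [CommRing A₀] [IsDomain A₀] [IsDiscreteValuationRing A₀]
    [Algebra A₀ K₁] [IsFractionRing A₀ K₁]
    [Algebra A₀ (ModelField K₁ (M * q))] [IsScalarTower A₀ K₁ (ModelField K₁ (M * q))]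
    (hqirr : Irreducible ((q : ℕ) : A₀))
    (x : ModelField K₁ (M * q)) (hx : (x : LaurentSeries K₁) = coeffEmb K₁ jq)
    (W : ModelField K₁ (M * q) ≃ₐ[K₁] ModelField K₁ (M * q)) (hW : IsAtkinLehnerModel K₁ M q W)
    (φ₁ : K₁ ≃ₐ[ℚ] K₁) (hφ₁ : IsModelFrobenius K₁ A₀ q φ₁) :
    KtTable ((heckeAlphaBar K₁ M q).toRingHom) ((heckeBetaBar K₁ M q).toRingHom)
      (ktV K₁ A₀ M) (ktV K₁ A₀ (M * q)) (ktV0 K₁ A₀ M q W)
      (modelSigma K₁ M φ₁) (modelSigma K₁ (M * q) φ₁)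
      (ktNormHom (heckeAlphaBar K₁ M q)) (ktNormHom (heckeBetaBar K₁ M q))
      (Set.range (algebraMap K₁ (ModelField K₁ M))) (q ^ 2) := by
  obtain ⟨-, -, -, -, -, -, happ, hinv1, hinv2, hinv', hT1a, hT1b, hF1, hF2⟩ :=
    hVal K₁ A₀ hqirr x hx W hW φ₁ hφ₁
  have hN := hNorm K₁ A₀ hqirr W hW φ₁ hφ₁
  have hinvU : ∀ {E : Type} [Field E] (V : ValuationSubring E) (φ : E ≃+* E),
      (∀ z : E, z ≠ 0 → φ z / z ∈ V ∧ z / φ z ∈ V) → ∀ z : E, z ≠ 0 → KtU V (φ z / z) := by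
    intro E _ V φ h z hz
    have hφz : φ z ≠ 0 := (map_ne_zero_iff φ φ.injective).mpr hz
    refine ktU_iff_inv.2 ⟨div_ne_zero hφz hz, (h z hz).1, ?_⟩
    rw [inv_div]
    exact (h z hz).2
  have hunitY : ∀ (α : ModelField K₁ M →+* ModelField K₁ (M * q))
      (V : ValuationSubring (ModelField K₁ (M * q))),
      (∀ y : ModelField K₁ M, α y ∈ V ↔ y ∈ ktV K₁ A₀ M) →
      ∀ (z : ModelField K₁ (M * q)) (y : ModelField K₁ M), KtU V z → z - α y ∈ V.nonunits →
        KtU (ktV K₁ A₀ M) y := by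
    intro α V ht1 z y hz hzy
    rw [← ktU_iff_map α ht1]
    refine ⟨?_, fun hn => hz.2 ?_⟩
    · have e : α y = z - (z - α y) := by ring
      rw [e]
      exact sub_mem hz.1 (kta_mem_of_nonunits V hzy)
    · have e : z = (z - α y) + α y := by ring
      rw [e]
      exact kta_nonunits_add V hzy hn
  refine
    { comm_α := fun y => kta_sigma_alpha K₁ M q φ₁ y
      comm_β := fun y => kta_sigma_beta K₁ M q φ₁ y
      comm_Na := fun z => ktNormHom_equiv (heckeAlphaBar K₁ M q) (modelSigma K₁ M φ₁)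
        (modelSigma K₁ (M * q) φ₁) (fun y => (kta_sigma_alpha K₁ M q φ₁ y).symm) z
      comm_Nb := fun z => ktNormHom_equiv (heckeBetaBar K₁ M q) (modelSigma K₁ M φ₁)
        (modelSigma K₁ (M * q) φ₁) (fun y => (kta_sigma_beta K₁ M q φ₁ y).symm) z
      inv₁ := hinvU _ _ hinv1
      inv₂ := hinvU _ _ hinv2
      inv' := hinvU _ _ hinv'
      t1α := hT1a
      t1β := hT1b
      f1 := ?_
      f2 := ?_
      ra := ?_
      rb := ?_
      const_map := ?_
      const_mul := ?_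
      const_inv := ?_
      const_frob := ?_
      approx := happ }
  · intro z hz
    obtain ⟨y, -, hy⟩ := hF1 z hz.1
    exact ⟨y, hunitY _ _ hT1a z y hz hy, hy⟩
  · intro z hz
    obtain ⟨y, -, hy⟩ := hF2 z hz.1
    exact ⟨y, hunitY _ _ hT1b z y hz hy, hy⟩
  · intro z y hz1 hz2 hy hzy
    obtain ⟨-, h1, h1'⟩ := ktU_iff_inv.1 hz1
    obtain ⟨-, h2, h2'⟩ := ktU_iff_inv.1 hz2
    exact (hN z h1 h1' h2 h2').1 y hy.1 hzy
  · intro z y hz1 hz2 hy hzy
    obtain ⟨-, h1, h1'⟩ := ktU_iff_inv.1 hz1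
    obtain ⟨-, h2, h2'⟩ := ktU_iff_inv.1 hz2
    exact (hN z h1 h1' h2 h2').2 y hy.1 hzy
  · rintro c ⟨k, rfl⟩
    exact ⟨φ₁ k, (arithmeticRingAut_algebraMap _ φ₁ k).symm⟩
  · rintro c ⟨k, rfl⟩ d ⟨l, rfl⟩
    exact ⟨k * l, map_mul _ _ _⟩
  · rintro c ⟨k, rfl⟩
    exact ⟨k⁻¹, map_inv₀ _ _⟩
  · rintro c ⟨k, rfl⟩ hc
    obtain ⟨a, rfl⟩ := (kta_const_mem_iff K₁ A₀ M k).1 hc.1
    obtain ⟨d, hd, hde⟩ := kta_frob_sq hφ₁ a
    have h1 := kta_const_nonunit K₁ A₀ M hd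
    rw [hde] at h1
    have e : modelSigma K₁ M φ₁ (modelSigma K₁ M φ₁
        (algebraMap K₁ (ModelField K₁ M) (algebraMap A₀ K₁ a)))
        - algebraMap K₁ (ModelField K₁ M) (algebraMap A₀ K₁ a) ^ (q ^ 2)
        = algebraMap K₁ (ModelField K₁ M)
          (φ₁ (φ₁ (algebraMap A₀ K₁ a)) - algebraMap A₀ K₁ a ^ (q ^ 2)) := by
      rw [arithmeticRingAut_algebraMap, arithmeticRingAut_algebraMap, map_sub, map_pow]
    rw [e]
    exact h1

end Table

end Fermat.Agent.H55.SS
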