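import Fermat.Agent.H55.SS.KTModel

/-!
# P-SS / S35, block (KT), row KT-A3 : CORRECTED statement of the abstract core (helper55)

`Fermat.Agent.H55.SS.KtS2CoreStatement` (module `KTModel`) has a defect: its hypothesis (CONST)
is stated for ALL constants `c` with `c, c⁻¹ ∈ V'`, which includes `c = 0` (where it is false).
`KtS2CoreFixStatement` is the same statement with `c ≠ 0` in (CONST); this is the one that the
assembly uses.  `ktS2CoreFix_of` : the old statement implies nothing useful, but a proof of the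
new one is what row KT-A3 must deliver.
-/

set_option autoImplicit false
set_option linter.unusedSectionVars false

noncomputable section

namespace Fermat.Agent.H55.SS

/-- **KT-A3 (S2CORE), corrected** (Mathlib only).  Same as `KtS2CoreStatement`, with `c ≠ 0` in
the hypothesis (CONST). -/
def KtS2CoreFixStatement : Prop :=
  ∀ (E' E : Type) [Field E'] [Field E] (α β : E' →+* E)
    (V' : ValuationSubring E') (V₁ V₂ : ValuationSubring E)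
    (φ' : E' ≃+* E') (φ : E ≃+* E) (Na Nb : E →* E') (K : Subfield E') (Q : ℕ),
    (∀ y, φ (α y) = α (φ' y)) → (∀ y, φ (β y) = β (φ' y)) →
    (∀ z, Na (φ z) = φ' (Na z)) → (∀ z, Nb (φ z) = φ' (Nb z)) →
    -- (INV) the Frobenius lift preserves the valuations
    (∀ z : E, z ≠ 0 → φ z / z ∈ V₁ ∧ z / φ z ∈ V₁) →
    (∀ z : E, z ≠ 0 → φ z / z ∈ V₂ ∧ z / φ z ∈ V₂) →
    (∀ y : E', y ≠ 0 → φ' y / y ∈ V' ∧ y / φ' y ∈ V') →
    -- (T1)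
    (∀ y : E', α y ∈ V₁ ↔ y ∈ V') → (∀ y : E', β y ∈ V₂ ↔ y ∈ V') →
    -- (F1), (F2) residue degree one
    (∀ z ∈ V₁, ∃ y ∈ V', z - α y ∈ V₁.nonunits) →
    (∀ z ∈ V₂, ∃ y ∈ V', z - β y ∈ V₂.nonunits) →
    -- (Ra), (Rb) the two norm reductions
    (∀ z : E, z ∈ V₁ → z⁻¹ ∈ V₁ → z ∈ V₂ → z⁻¹ ∈ V₂ → ∀ y ∈ V', z - β y ∈ V₂.nonunits →
      α (Na z) - z * α (φ' y) ∈ V₁.nonunits) →
    (∀ z : E, z ∈ V₁ → z⁻¹ ∈ V₁ → z ∈ V₂ → z⁻¹ ∈ V₂ → ∀ y ∈ V', z - α y ∈ V₁.nonunits →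
      β (Nb z) - z * β (φ' y) ∈ V₂.nonunits) →
    -- (CONST) the constants
    (∀ c ∈ K, φ' c ∈ K) →
    (∀ c ∈ K, c ≠ 0 → c ∈ V' → c⁻¹ ∈ V' → φ' (φ' c) / c ^ Q - 1 ∈ V'.nonunits) →
    -- (APPROX)
    (∀ a b : E, ∃ g : E, g - a ∈ V₁.nonunits ∧ g - b ∈ V₂.nonunits) →
    ∀ (n : ℕ), 0 < n → ∀ (f : E), f ≠ 0 → ∀ (γ γ' h h' : E'), γ ∈ K → γ' ∈ K →
      γ ≠ 0 → γ' ≠ 0 → h ≠ 0 → h' ≠ 0 →
      Na f = γ * h ^ n → Nb f = γ' * h' ^ n →
      ∃ Γ : E, Γ ≠ 0 ∧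
        ktQuot (fun z => φ (φ z)) Q (ktQuot (fun z => φ (φ z)) 1
          (ktQuot (fun z => φ (φ z)) 1 f)) / Γ ^ n - 1 ∈ V₁.nonunits ∧
        ktQuot (fun z => φ (φ z)) Q (ktQuot (fun z => φ (φ z)) 1
          (ktQuot (fun z => φ (φ z)) 1 f)) / Γ ^ n - 1 ∈ V₂.nonunits

end Fermat.Agent.H55.SS
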