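import Fermat.Agent.H55.SS.KTAsm
import Fermat.Agent.H55.SS.KTLocAdapter
import Fermat.Agent.H65.SS.KtFrobModel
import Fermat.Agent.H58.KT.DescFinal

/-!
# P-SS / S35, block (KT) : the function-field statement (KT-FF) from the open inputs (helper55)

`toricFrobFF_of_inputs` : `ToricFrobFFStatement M q` (the contract with the `J`-side) from exactly
three still-open concrete inputs at level `M q`:

* `ModelNormRed2Statement M q` (row KT-C2, the two norm reductions),
* `Fermat.Agent.H65.SS.ModelFrobNodeStatement M q` (row KT-C3, FR-3: the nodes are `Ψ`-stable),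
* `Fermat.Agent.H7.SS2.RegLRStatement M q h₀ 1` (row REGL: regularity of the model).

Plugged in: helper34's `modelVal2` (KT-C1), helper65's `modelFrob_of_node` (KT-C3, clauses 1-4),
helper17's `ktLoc_of_regLAt` (KT-C4), helper16's `KtTable.exists_gamma_unit` (KT-A3), helper42's
`ktAbs` (KT-A2), helper27's `lpzTwoKT` (KT-A1), helper60's `regFact`, helper47's `lpzOne`,
helper58's `toricFrobFF_of_model_final` (KT-C6).
-/

set_option autoImplicit false

namespace Fermat.Agent.H55.SS

open ModularCurve

/-- **Model-level (KT)** from the three open inputs. -/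
theorem modelToric_of_inputs (M q : ℕ) [NeZero M] [NeZero q] (hq : q.Prime) (hqM : ¬ q ∣ M)
    (h₀ : LaurentSeries ℚ) (hh₀ : h₀ ∈ modularFunctionFieldFull M)
    (hNorm : ModelNormRed2Statement M q)
    (hNode : Fermat.Agent.H65.SS.ModelFrobNodeStatement M q)
    (hREGL : Fermat.Agent.H7.SS2.RegLRStatement M q h₀ 1) :
    ModelToricStatement M q :=
  modelToric_of M q hq (Nat.Coprime.symm ((Nat.Prime.coprime_iff_not_dvd hq).2 hqM))
    (Fermat.Agent.H34.SS.modelVal2 M q hq hqM) hNorm
    (Fermat.Agent.H65.SS.modelFrob_of_node M q hNode)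
    (modelLocData_of_regL M q hq hqM h₀ hh₀ hREGL
      (Fermat.Agent.H65.SS.modelFrob_of_node M q hNode))

/-- **(KT-FF)** from the three open inputs. -/
theorem toricFrobFF_of_inputs (M q : ℕ) [NeZero M] [NeZero q] (hq : q.Prime) (hqM : ¬ q ∣ M)
    (h₀ : LaurentSeries ℚ) (hh₀ : h₀ ∈ modularFunctionFieldFull M)
    (hNorm : ModelNormRed2Statement M q)
    (hNode : Fermat.Agent.H65.SS.ModelFrobNodeStatement M q)
    (hREGL : Fermat.Agent.H7.SS2.RegLRStatement M q h₀ 1) :
    ToricFrobFFStatement M q :=
  Fermat.Agent.H58.KT.toricFrobFF_of_model_final M q hq hqM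
    (modelToric_of_inputs M q hq hqM h₀ hh₀ hNorm hNode hREGL)

end Fermat.Agent.H55.SS
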