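import Fermat.Agent.H55.SS.KTAsmMono
import Fermat.Agent.H56.SS.NormRed2

/-!
# P-SS / S35, block (KT) : (KT-FF) from the TWO remaining open inputs (helper55)

helper56's `modelNormRed2` (row KT-C2) is plugged in.  Open: FR-3 (the nodes are `Ψ`-stable) and
REGL (regularity of the model), over the number fields containing `μ_{R₁}` resp. `μ_{R₂}`.
-/

set_option autoImplicit false

namespace Fermat.Agent.H55.SS

open ModularCurve

/-- **(KT-FF)** from FR-3 and REGL. -/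
theorem toricFrobFF_of_node_regL (M q R₁ R₂ : ℕ) [NeZero M] [NeZero q] (hq : q.Prime)
    (hqM : ¬ q ∣ M) (hR₁ : 0 < R₁) (hR₂ : 0 < R₂) (hqR₁ : ¬ q ∣ R₁) (hqR₂ : ¬ q ∣ R₂)
    (h₀ : LaurentSeries ℚ) (hh₀ : h₀ ∈ modularFunctionFieldFull M)
    (hNode : ModelNodeStableRStatement M q R₁)
    (hREGL : Fermat.Agent.H7.SS2.RegLRStatement M q h₀ R₂) :
    ToricFrobFFStatement M q :=
  toricFrobFF_of_inputs_two M q R₁ R₂ hq hqM hR₁ hR₂ hqR₁ hqR₂ h₀ hh₀
    (Fermat.Agent.H56.SS.modelNormRed2 M q hq hqM) hNode hREGL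

end Fermat.Agent.H55.SS
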