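import Fermat.Agent.H55.SS.KTFinal2
import Fermat.Agent.H7.SS2.SmoothGen
import Fermat.Agent.H7.SS2.RegLFinal
import Fermat.Agent.H67.SS.CuspRegFinal
import Fermat.Agent.H22.SS.LevelRegH4One
import Fermat.Agent.H41.SS.OrdFinal3
import Fermat.Agent.H61.SS.FracH41
import Fermat.Agent.H65.SS.KtFrobRoots
import Fermat.Agent.H71.SS.KtNodeFinal
import Fermat.Agent.H67.SS.NodeGen
import Fermat.Agent.H59.SS.LevelRegFrob
import Fermat.Agent.H59.SS.LevelRegSS9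
import Fermat.Agent.H8.SS.CrossData
import Fermat.Agent.H8.SS.Cross9Data
import Fermat.Agent.H8.SS.Haupt4Field
import Fermat.Agent.H31.SS.Haupt9Field

/-!
# P-SS / S35, block (KT) : (KT-FF) at the auxiliary levels from the node inputs (helper55)

Everything of block (KT) is plugged in (FR-3 / (FRAC-loc): helper71 + helper65) except

* **(N)** `Fermat.Agent.H7.SS2.NodeGenRStatement M q h₀ R₂` (the nodes are generated by
  `X = H_q - H^q`, `Y = H - H_q^q`), for the Hauptmodul `h₀ = h4` (`q` odd, `4 ∣ M`) resp.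
  `h₀ = h9` (`q = 2`, `9 ∣ M`).

Main results: `regLR_odd_of_nodeGen`, `regLR_two_of_nodeGen` (REGL from (N): the smooth points
by helper7 / helper22 / helper41 / helper61, the cusps by helper67), `toricFrobFF_odd_of`,
`toricFrobFF_two_of`, the conditional form `ktFFAux_of`, and

* `nodeGenR_h4`, `nodeGenR_h9` : (N) at the auxiliary pairs, UNCONDITIONAL (helper67's assembly
  `nodeGenR_of` on helper8's crossing data, helper71's (FRAC-loc) and helper59's level-`M`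
  regularity with explicit parameter);
* **`ktFFAux`** : (KT-FF) at all auxiliary pairs, UNCONDITIONAL
  (`= Fermat.Agent.H52.SS.KTFFAuxStatement`, unfolded).
-/

set_option autoImplicit false

namespace Fermat.Agent.H55.SS

open ModularCurve

/-! ## Monotonicity of the three generator inputs in the roots of unity -/

theorem ktf3_smoothGenR_mono (M q R₁ R : ℕ) [NeZero M] [NeZero q] (hdvd : R₁ ∣ R) (hR : 0 < R)
    (h : Fermat.Agent.H7.SS2.SmoothGenRStatement M q R₁) :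
    Fermat.Agent.H7.SS2.SmoothGenRStatement M q R :=
  fun K₁ _ _ _ A₀ _ _ _ _ _ _ _ hqA hζ =>
    h K₁ A₀ hqA (kta_exists_primitiveRoot_of_dvd hdvd hR hζ)

theorem ktf3_nodeGenR_mono (M q R₁ R : ℕ) [NeZero M] [NeZero q] (h₀ : LaurentSeries ℚ)
    (hdvd : R₁ ∣ R) (hR : 0 < R)
    (h : Fermat.Agent.H7.SS2.NodeGenRStatement M q h₀ R₁) :
    Fermat.Agent.H7.SS2.NodeGenRStatement M q h₀ R :=
  fun K₁ _ _ _ A₀ _ _ _ _ _ _ _ hqA hζ =>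
    h K₁ A₀ hqA (kta_exists_primitiveRoot_of_dvd hdvd hR hζ)

theorem ktf3_cuspGenR_mono (M q R₁ R : ℕ) [NeZero M] [NeZero q] (hdvd : R₁ ∣ R) (hR : 0 < R)
    (h : Fermat.Agent.H7.SS2.CuspGenRStatement M q R₁) :
    Fermat.Agent.H7.SS2.CuspGenRStatement M q R :=
  fun K₁ _ _ _ A₀ _ _ _ _ _ _ _ hqA hζ =>
    h K₁ A₀ hqA (kta_exists_primitiveRoot_of_dvd hdvd hR hζ)

theorem ktf3_modelLevelReg_mono (M q R₁ R : ℕ) [NeZero M] (x₀ : LaurentSeries ℚ)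
    (hdvd : R₁ ∣ R) (hR : 0 < R)
    (h : Fermat.Agent.H41.SS.ModelLevelRegStatement M q x₀ R₁) :
    Fermat.Agent.H41.SS.ModelLevelRegStatement M q x₀ R :=
  fun K₁ _ _ _ A₀ _ _ _ _ _ _ _ hqA hζ =>
    h K₁ A₀ hqA (kta_exists_primitiveRoot_of_dvd hdvd hR hζ)

/-! ## REGL from (N) -/

/-- **REGL, `q` odd, `4 ∣ M`**, from the node input (N) for the Hauptmodul `h4`. -/
theorem regLR_odd_of_nodeGen (M q R : ℕ) [NeZero M] [NeZero q] (hq : q.Prime) (hq2 : q ≠ 2)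
    (hqM : ¬ q ∣ M) (h4 : 4 ∣ M) (hR : 0 < R) (hMR : M ∣ R)
    (hN : Fermat.Agent.H7.SS2.NodeGenRStatement M q
      (coeffMap (Int.castRingHom ℚ) Fermat.Agent.H8.SS.h4Z) R) :
    Fermat.Agent.H7.SS2.RegLRStatement M q
      (coeffMap (Int.castRingHom ℚ) Fermat.Agent.H8.SS.h4Z) R :=
  Fermat.Agent.H7.SS2.regLR_of M q hq hqM Fermat.Agent.H8.SS.h4Z R
    (fun K₁ _ _ => Fermat.Agent.H8.SS.h4S_mem_laurentBaseChange K₁ M h4)
    (Fermat.Agent.H7.SS2.smoothGenR_of M q hq hqM R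
      (Fermat.Agent.H22.SS.modelLevelReg_h4_any M q hq hq2 hqM h4 R)
      (Fermat.Agent.H61.SS.modelFracH41 M q hq hqM))
    hN
    (ktf3_cuspGenR_mono M q M R hMR hR (Fermat.Agent.H67.SS.cuspGenR M q hq hqM))

/-- **REGL, `q = 2`, `9 ∣ M`**, from the node input (N) for the Hauptmodul `h9`. -/
theorem regLR_two_of_nodeGen (M R : ℕ) [NeZero M] (hqM : ¬ 2 ∣ M) (h9 : 9 ∣ M) (hR : 0 < R)
    (hMR : 3 * M ∣ R)
    (hN : Fermat.Agent.H7.SS2.NodeGenRStatement M 2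
      (coeffMap (Int.castRingHom ℚ) Fermat.Agent.H31.SS.h9Z) R) :
    Fermat.Agent.H7.SS2.RegLRStatement M 2
      (coeffMap (Int.castRingHom ℚ) Fermat.Agent.H31.SS.h9Z) R :=
  Fermat.Agent.H7.SS2.regLR_of M 2 Nat.prime_two hqM Fermat.Agent.H31.SS.h9Z R
    (fun K₁ _ _ => by
      rw [Fermat.Agent.H31.SS.coeffMap_h9Z]
      exact Fermat.Agent.H31.SS.h9S_mem_laurentBaseChange K₁ M h9)
    (Fermat.Agent.H7.SS2.smoothGenR_of M 2 Nat.prime_two hqM R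
      (ktf3_modelLevelReg_mono M 2 (3 * M) R jq hMR hR
        (Fermat.Agent.H41.SS.modelLevelReg_j_of_three_dvd M 2 Nat.prime_two (by norm_num) hqM
          (dvd_trans (by norm_num) h9)))
      (Fermat.Agent.H61.SS.modelFracH41 M 2 Nat.prime_two hqM))
    hN
    (ktf3_cuspGenR_mono M 2 M R (dvd_trans (dvd_mul_left M 3) hMR) hR
      (Fermat.Agent.H67.SS.cuspGenR M 2 Nat.prime_two hqM))

/-! ## (KT-FF) at the auxiliary levels -/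

theorem ktf3_h4_mem (M : ℕ) [NeZero M] (h4 : 4 ∣ M) :
    coeffMap (Int.castRingHom ℚ) Fermat.Agent.H8.SS.h4Z ∈ modularFunctionFieldFull M := by
  have h := Fermat.Agent.H8.SS.h4S_mem_fullC ℚ (by norm_num) M h4
  rw [modularFunctionFieldFullC_rat] at h
  exact h

theorem ktf3_h9_mem (M : ℕ) [NeZero M] (h9 : 9 ∣ M) :
    coeffMap (Int.castRingHom ℚ) Fermat.Agent.H31.SS.h9Z ∈ modularFunctionFieldFull M := by
  rw [Fermat.Agent.H31.SS.coeffMap_h9Z]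
  exact Fermat.Agent.H31.SS.h9S_rat_mem_full M h9

/-- **(KT-FF), `q` odd, `4 ∣ M`**, from (FRAC-loc) and (N). -/
theorem toricFrobFF_odd_of (M q R₁ R₂ : ℕ) [NeZero M] [NeZero q] (hq : q.Prime) (hq2 : q ≠ 2)
    (hqM : ¬ q ∣ M) (h4 : 4 ∣ M) (hR₁ : 0 < R₁) (hqR₁ : ¬ q ∣ R₁) (hR₂ : 0 < R₂)
    (hqR₂ : ¬ q ∣ R₂)
    (hFrac : Fermat.Agent.H65.SS.ModelFracLocRootsStatement M q R₁)
    (hN : Fermat.Agent.H7.SS2.NodeGenRStatement M q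
      (coeffMap (Int.castRingHom ℚ) Fermat.Agent.H8.SS.h4Z) R₂) :
    ToricFrobFFStatement M q := by
  have hM : 0 < M := Nat.pos_of_ne_zero (NeZero.ne M)
  have hR : 0 < M * R₂ := Nat.mul_pos hM hR₂
  have hqR : ¬ q ∣ M * R₂ := fun h => (hq.dvd_mul.1 h).elim hqM hqR₂
  exact toricFrobFF_of_node_regL M q R₁ (M * R₂) hq hqM hR₁ hR hqR₁ hqR _ (ktf3_h4_mem M h4)
    (Fermat.Agent.H65.SS.modelNodeStableR_of_fracLocRoots M q R₁ hq hqM hFrac)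
    (regLR_odd_of_nodeGen M q (M * R₂) hq hq2 hqM h4 hR (dvd_mul_right _ _)
      (ktf3_nodeGenR_mono M q R₂ (M * R₂) _ (dvd_mul_left _ _) hR hN))

/-- **(KT-FF), `q = 2`, `9 ∣ M`**, from (FRAC-loc) and (N). -/
theorem toricFrobFF_two_of (M R₁ R₂ : ℕ) [NeZero M] (hqM : ¬ 2 ∣ M) (h9 : 9 ∣ M)
    (hR₁ : 0 < R₁) (hqR₁ : ¬ 2 ∣ R₁) (hR₂ : 0 < R₂) (hqR₂ : ¬ 2 ∣ R₂)
    (hFrac : Fermat.Agent.H65.SS.ModelFracLocRootsStatement M 2 R₁)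
    (hN : Fermat.Agent.H7.SS2.NodeGenRStatement M 2
      (coeffMap (Int.castRingHom ℚ) Fermat.Agent.H31.SS.h9Z) R₂) :
    ToricFrobFFStatement M 2 := by
  have hM : 0 < M := Nat.pos_of_ne_zero (NeZero.ne M)
  have hR : 0 < 3 * M * R₂ := Nat.mul_pos (Nat.mul_pos (by norm_num) hM) hR₂
  have hqR : ¬ 2 ∣ 3 * M * R₂ := fun h =>
    (Nat.prime_two.dvd_mul.1 h).elim
      (fun h' => (Nat.prime_two.dvd_mul.1 h').elim (by norm_num) hqM) hqR₂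
  exact toricFrobFF_of_node_regL M 2 R₁ (3 * M * R₂) Nat.prime_two hqM hR₁ hR hqR₁ hqR _
    (ktf3_h9_mem M h9)
    (Fermat.Agent.H65.SS.modelNodeStableR_of_fracLocRoots M 2 R₁ Nat.prime_two hqM hFrac)
    (regLR_two_of_nodeGen M (3 * M * R₂) hqM h9 hR (dvd_mul_right _ _)
      (ktf3_nodeGenR_mono M 2 R₂ (3 * M * R₂) _ (dvd_mul_left _ _) hR hN))

/-- **(KT-FF) at all auxiliary pairs** (`= Fermat.Agent.H52.SS.KTFFAuxStatement`, unfolded) from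
(FRAC-loc) and (N) at the auxiliary pairs (with any roots of unity of order prime to `q`). -/
theorem ktFFAux_of_frac
    (hFrac : ∀ (M q : ℕ) [NeZero M] [NeZero q], q.Prime → ¬ q ∣ M →
      (q ≠ 2 → 4 ∣ M) → (q = 2 → 9 ∣ M) →
      ∃ R, 0 < R ∧ ¬ q ∣ R ∧ Fermat.Agent.H65.SS.ModelFracLocRootsStatement M q R)
    (hN4 : ∀ (M q : ℕ) [NeZero M] [NeZero q], q.Prime → q ≠ 2 → ¬ q ∣ M → 4 ∣ M →
      ∃ R, 0 < R ∧ ¬ q ∣ R ∧ Fermat.Agent.H7.SS2.NodeGenRStatement M q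
        (coeffMap (Int.castRingHom ℚ) Fermat.Agent.H8.SS.h4Z) R)
    (hN9 : ∀ (M : ℕ) [NeZero M], ¬ 2 ∣ M → 9 ∣ M →
      ∃ R, 0 < R ∧ ¬ 2 ∣ R ∧ Fermat.Agent.H7.SS2.NodeGenRStatement M 2
        (coeffMap (Int.castRingHom ℚ) Fermat.Agent.H31.SS.h9Z) R) :
    ∀ (M' q : ℕ) [NeZero M'] [NeZero q], q.Prime → ¬ q ∣ M' →
      (q ≠ 2 → 4 ∣ M') → (q = 2 → 9 ∣ M') → ToricFrobFFStatement M' q := by
  intro M' q _ _ hq hqM h4 h9
  obtain ⟨R₁, hR₁, hqR₁, hF⟩ := hFrac M' q hq hqM h4 h9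
  by_cases hq2 : q = 2
  · subst hq2
    obtain ⟨R₂, hR₂, hqR₂, hN⟩ := hN9 M' hqM (h9 rfl)
    exact toricFrobFF_two_of M' R₁ R₂ hqM (h9 rfl) hR₁ hqR₁ hR₂ hqR₂ hF hN
  · obtain ⟨R₂, hR₂, hqR₂, hN⟩ := hN4 M' q hq hq2 hqM (h4 hq2)
    exact toricFrobFF_odd_of M' q R₁ R₂ hq hq2 hqM (h4 hq2) hR₁ hqR₁ hR₂ hqR₂ hF hN

/-- **(KT-FF) at all auxiliary pairs** (`= Fermat.Agent.H52.SS.KTFFAuxStatement`, unfolded) from
the node input (N) alone (helper71's unconditional (FRAC-loc) plugged in). -/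
theorem ktFFAux_of
    (hN4 : ∀ (M q : ℕ) [NeZero M] [NeZero q], q.Prime → q ≠ 2 → ¬ q ∣ M → 4 ∣ M →
      ∃ R, 0 < R ∧ ¬ q ∣ R ∧ Fermat.Agent.H7.SS2.NodeGenRStatement M q
        (coeffMap (Int.castRingHom ℚ) Fermat.Agent.H8.SS.h4Z) R)
    (hN9 : ∀ (M : ℕ) [NeZero M], ¬ 2 ∣ M → 9 ∣ M →
      ∃ R, 0 < R ∧ ¬ 2 ∣ R ∧ Fermat.Agent.H7.SS2.NodeGenRStatement M 2
        (coeffMap (Int.castRingHom ℚ) Fermat.Agent.H31.SS.h9Z) R) :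
    ∀ (M' q : ℕ) [NeZero M'] [NeZero q], q.Prime → ¬ q ∣ M' →
      (q ≠ 2 → 4 ∣ M') → (q = 2 → 9 ∣ M') → ToricFrobFFStatement M' q :=
  ktFFAux_of_frac
    (fun M q _ _ hq hqM h4 h9 =>
      ⟨Fermat.Agent.H71.SS.ktAuxRoot M q, Fermat.Agent.H71.SS.ktAuxRoot_pos M q,
        Fermat.Agent.H71.SS.not_dvd_ktAuxRoot M q hq hqM,
        Fermat.Agent.H71.SS.ktFracLocRoots_aux M q hq hqM h4 h9⟩)
    hN4 hN9

/-- **(KT-FF) for `q` odd, `4 ∣ M`** from (N). -/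
theorem toricFrobFF_odd_of_nodeGen (M q R : ℕ) [NeZero M] [NeZero q] (hq : q.Prime)
    (hq2 : q ≠ 2) (hqM : ¬ q ∣ M) (h4 : 4 ∣ M) (hR : 0 < R) (hqR : ¬ q ∣ R)
    (hN : Fermat.Agent.H7.SS2.NodeGenRStatement M q
      (coeffMap (Int.castRingHom ℚ) Fermat.Agent.H8.SS.h4Z) R) :
    ToricFrobFFStatement M q :=
  toricFrobFF_odd_of M q _ R hq hq2 hqM h4 (Fermat.Agent.H71.SS.ktAuxRoot_pos M q)
    (Fermat.Agent.H71.SS.not_dvd_ktAuxRoot M q hq hqM) hR hqR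
    (Fermat.Agent.H71.SS.ktFracLocRoots_aux M q hq hqM (fun _ => h4) (fun h => absurd h hq2))
    hN

/-! ## (N) at the auxiliary pairs, and the final theorem -/

theorem ktf3_coeffEmb_h4 (K₁ : Type) [Field K₁] [Algebra ℚ K₁] :
    coeffEmb K₁ (coeffMap (Int.castRingHom ℚ) Fermat.Agent.H8.SS.h4Z) =
      Fermat.Agent.H8.SS.h4S K₁ :=
  Fermat.Agent.H8.SS.coeffMap_h4S (algebraMap ℚ K₁)

theorem ktf3_coeffEmb_h9 (K₁ : Type) [Field K₁] [Algebra ℚ K₁] :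
    coeffEmb K₁ (coeffMap (Int.castRingHom ℚ) Fermat.Agent.H31.SS.h9Z) =
      Fermat.Agent.H31.SS.h9S K₁ := by
  rw [Fermat.Agent.H31.SS.coeffMap_h9Z]
  exact Fermat.Agent.H31.SS.coeffEmb_h9S K₁

/-- The level-`M` regularity with explicit parameter, in helper67's form. -/
theorem ktf3_levelRegFrob (M q R : ℕ) [NeZero M] [NeZero q] (h₀ : LaurentSeries ℚ)
    (h : Fermat.Agent.H59.SS.ModelLevelRegFrobStatement M q h₀) :
    Fermat.Agent.H67.SS.ModelLevelRegFrobStatement M q h₀ R :=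
  fun K₁ _ _ _ A₀ _ _ _ _ _ _ _ hqA _ ϖ hϖ x hx 𝔫 h𝔫 hϖ𝔫 U H' hH' hU hU𝔫 =>
    h K₁ A₀ hqA ϖ hϖ x hx 𝔫 h𝔫 hϖ𝔫 U H' hH' hU hU𝔫

/-- **(N), `q` odd, `4 ∣ M`**: UNCONDITIONAL. -/
theorem nodeGenR_h4 (M q : ℕ) [NeZero M] [NeZero q] (hq : q.Prime) (hq2 : q ≠ 2)
    (hqM : ¬ q ∣ M) (h4 : 4 ∣ M) :
    Fermat.Agent.H7.SS2.NodeGenRStatement M q
      (coeffMap (Int.castRingHom ℚ) Fermat.Agent.H8.SS.h4Z)
      (Fermat.Agent.H71.SS.ktAuxRoot M q) :=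
  Fermat.Agent.H67.SS.nodeGenR_of M q _ hq hqM Fermat.Agent.H8.SS.h4Z
    (fun K₁ _ _ => Fermat.Agent.H8.SS.h4S_mem_laurentBaseChange K₁ M h4)
    (fun K₁ _ _ _ A₀ _ _ _ _ _ _ _ hqA _ ϖ hϖ x hx W hW 𝔪 h𝔪 hϖ𝔪 hI hZ => by
      obtain ⟨D, Ψ, H, Hq, hH, hHq, hSS⟩ :=
        Fermat.Agent.H8.SS.ssCrossData M q h4 hq hq2 hqM K₁ A₀ hqA ϖ hϖ x hx W hW 𝔪 h𝔪 hϖ𝔪
          hI hZ
      refine ⟨D, Ψ, H, Hq, ?_, ?_, hSS⟩
      · rw [ktf3_coeffEmb_h4]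
        exact hH
      · rw [ktf3_coeffEmb_h4]
        exact hHq)
    (Fermat.Agent.H71.SS.ktFracLocRoots_aux M q hq hqM (fun _ => h4) (fun h => absurd h hq2))
    (ktf3_levelRegFrob M q _ _ (Fermat.Agent.H59.SS.modelLevelRegFrob_h4Z M q hq hq2 hqM h4))

/-- **(N), `q = 2`, `9 ∣ M`**: UNCONDITIONAL. -/
theorem nodeGenR_h9 (M : ℕ) [NeZero M] (hqM : ¬ 2 ∣ M) (h9 : 9 ∣ M) :
    Fermat.Agent.H7.SS2.NodeGenRStatement M 2
      (coeffMap (Int.castRingHom ℚ) Fermat.Agent.H31.SS.h9Z)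
      (Fermat.Agent.H71.SS.ktAuxRoot M 2) :=
  Fermat.Agent.H67.SS.nodeGenR_of M 2 _ Nat.prime_two hqM Fermat.Agent.H31.SS.h9Z
    (fun K₁ _ _ => by
      rw [Fermat.Agent.H31.SS.coeffMap_h9Z]
      exact Fermat.Agent.H31.SS.h9S_mem_laurentBaseChange K₁ M h9)
    (fun K₁ _ _ _ A₀ _ _ _ _ _ _ _ hqA _ ϖ hϖ x hx W hW 𝔪 h𝔪 hϖ𝔪 hI hZ => by
      obtain ⟨D, Ψ, H, Hq, hH, hHq, hSS⟩ :=
        Fermat.Agent.H8.SS.ssCrossData9 M 2 h9 Nat.prime_two (by norm_num) hqM K₁ A₀ hqA ϖ hϖ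
          x hx W hW 𝔪 h𝔪 hϖ𝔪 hI hZ
      refine ⟨D, Ψ, H, Hq, ?_, ?_, hSS⟩
      · rw [ktf3_coeffEmb_h9]
        exact hH
      · rw [ktf3_coeffEmb_h9]
        exact hHq)
    (Fermat.Agent.H71.SS.ktFracLocRoots_aux M 2 Nat.prime_two hqM (fun h => absurd rfl h)
      (fun _ => h9))
    (ktf3_levelRegFrob M 2 _ _
      (Fermat.Agent.H59.SS.modelLevelRegFrob_h9Z M 2 Nat.prime_two (by norm_num) hqM h9))

/-- **(KT-FF) AT ALL AUXILIARY PAIRS, UNCONDITIONAL**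
(`= Fermat.Agent.H52.SS.KTFFAuxStatement`, unfolded): for every prime `q ∤ M'`, with `4 ∣ M'` if
`q` is odd and `9 ∣ M'` if `q = 2`, the toric Frobenius statement `ToricFrobFFStatement M' q`
holds. -/
theorem ktFFAux :
    ∀ (M' q : ℕ) [NeZero M'] [NeZero q], q.Prime → ¬ q ∣ M' →
      (q ≠ 2 → 4 ∣ M') → (q = 2 → 9 ∣ M') → ToricFrobFFStatement M' q :=
  ktFFAux_of
    (fun M q _ _ hq hq2 hqM h4 =>
      ⟨Fermat.Agent.H71.SS.ktAuxRoot M q, Fermat.Agent.H71.SS.ktAuxRoot_pos M q,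
        Fermat.Agent.H71.SS.not_dvd_ktAuxRoot M q hq hqM, nodeGenR_h4 M q hq hq2 hqM h4⟩)
    (fun M _ hqM h9 =>
      ⟨Fermat.Agent.H71.SS.ktAuxRoot M 2, Fermat.Agent.H71.SS.ktAuxRoot_pos M 2,
        Fermat.Agent.H71.SS.not_dvd_ktAuxRoot M 2 Nat.prime_two hqM, nodeGenR_h9 M hqM h9⟩)

end Fermat.Agent.H55.SS
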